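import Fermat.Agent.LT.HeckeOp
import Fermat.Agent.LT.H3.Measure
import Mathlib.Analysis.SpecialFunctions.ExpDeriv
import Mathlib.Analysis.SpecialFunctions.Trigonometric.DerivHyp
import Mathlib.NumberTheory.NumberField.InfinitePlace.TotallyRealComplex
import Mathlib.RingTheory.Trace.Basic
import Mathlib.LinearAlgebra.Matrix.GeneralLinearGroup.FinTwo

/-!
# Fourier expansion of eigenfunctions on `Y` at a cusp

A function of the class `IsCuspEigen` has, for every finite coset, the expansion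
`φ (ptAt z t, x) = ∑_{ξ ≠ 0} W (dia ξ • x) e (Tr ξ z) ∏ ‖ξ_w‖ t_w K₀ (4π ‖ξ_w‖ t_w)`,
and `W` transforms on the left under adelic unipotents through `psiFin`.
-/

set_option autoImplicit false

noncomputable section

open MeasureTheory Matrix
open NumberField (InfinitePlace)

namespace Fermat.Agent.LT

/-- The unipotent `(1 u; 0 1)`. -/
abbrev unip {R : Type*} [CommRing R] (u : R) : GL (Fin 2) R :=
  Matrix.GeneralLinearGroup.upperRightHom u

/-- The diagonal `(a 0; 0 1)`. -/
def dia {R : Type*} [CommRing R] (a : Rˣ) : GL (Fin 2) R where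
  val := !![(a : R), 0; 0, 1]
  inv := !![((a⁻¹ : Rˣ) : R), 0; 0, 1]
  val_inv := by ext i j; fin_cases i <;> fin_cases j <;> simp [Matrix.mul_apply, Fin.sum_univ_two]
  inv_val := by ext i j; fin_cases i <;> fin_cases j <;> simp [Matrix.mul_apply, Fin.sum_univ_two]

namespace Whittaker

/-- `K₀`. -/
def besselK (A : ℝ) : ℝ := ∫ r in Set.Ioi (0 : ℝ), Real.exp (-(A * Real.cosh r))

/-- The eigenvalue of the kernel `exp (-A cosh d)` on the spherical function `r / sinh r`. -/
def sphEigen (A : ℝ) : ℝ := 4 * Real.pi * besselK A / A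

variable {F : Type*} [Field F] [NumberField F]

/-- The point with coordinates `(z, t)`. -/
def ptAt (z : InfinitePlace F → ℂ) (t : InfinitePlace F → ℝ) : InfinitePlace F → H3 :=
  fun w => H3.pt (z w) (t w)

/-- The pairing `∑_w 2 Re (ξ_w z_w)`, that is `Tr (ξ z)` for a totally complex field. -/
def pairing (ξ : F) (z : InfinitePlace F → ℂ) : ℝ :=
  ∑ w : InfinitePlace F, 2 * (w.embedding ξ * z w).re

/-- The additive character `z ↦ e (Tr (ξ z))`. -/
def expChar (ξ : F) (z : InfinitePlace F → ℂ) : ℂ :=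
  Complex.exp ((2 * Real.pi * pairing ξ z : ℝ) * Complex.I)

/-- `∏_w ‖ξ_w‖ t_w K₀ (4π ‖ξ_w‖ t_w)`. -/
def bessel (ξ : F) (t : InfinitePlace F → ℝ) : ℝ :=
  ∏ w : InfinitePlace F, (w ξ * t w) * besselK (4 * Real.pi * (w ξ * t w))

open Classical in
/-- Cuspidal eigenfunctions of spectral parameter zero at every place. The kernels
`exp (-A cosh d)` stand for all radial kernels. -/
structure IsCuspEigen {U : Level F} (φ : Y U → ℂ) : Prop where
  automorphic : IsAutomorphic φ
  continuous : ∀ c, Continuous fun P => φ (P, c)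
  bounded : ∃ C : ℝ, ∀ y, ‖φ y‖ ≤ C
  eigen : ∀ (w : InfinitePlace F) (y : Y U) (A : ℝ), 0 < A →
    ∫ Q, (Real.exp (-(A * H3.cdist (y.1 w) Q)) : ℂ) * φ (Function.update y.1 w Q, y.2) ∂H3.vol
      = (sphEigen A : ℂ) * φ y
  zeroConst : ∀ (c : GLFin F ⧸ U.toSubgroup) (t : InfinitePlace F → ℝ)
      (b : Module.Basis (Fin (Module.finrank ℚ F)) ℚ F), (∀ w, 0 < t w) →
    (∀ i, glIncl F (unip (b i)) • c = c) →
    ∫ u in {u : Fin (Module.finrank ℚ F) → ℝ | ∀ i, u i ∈ Set.Ioc (0 : ℝ) 1},
      φ (ptAt (fun w => ∑ i, (u i : ℂ) * w.embedding (b i)) t, c) = 0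

open Classical in
/-- The expansion at the coset `c`. -/
def IsExpansion {U : Level F} (φ : Y U → ℂ) (c : GLFin F ⧸ U.toSubgroup) (a : F → ℂ) : Prop :=
  a 0 = 0 ∧ ∀ (z : InfinitePlace F → ℂ) (t : InfinitePlace F → ℝ), (∀ w, 0 < t w) →
    HasSum (fun ξ : F => a ξ * expChar ξ z * (bessel ξ t : ℂ)) (φ (ptAt z t, c))

open Classical in
/-- The Fourier coefficients at the coset `c`. -/
def coef {U : Level F} (φ : Y U → ℂ) (c : GLFin F ⧸ U.toSubgroup) : F → ℂ :=
  if h : ∃ a, IsExpansion φ c a then h.choose else 0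

/-- The Whittaker function: the first coefficient, as a function of the finite coset. -/
def whit {U : Level F} (φ : Y U → ℂ) (c : GLFin F ⧸ U.toSubgroup) : ℂ := coef φ c 1

variable (F) in
open Classical in
/-- The finite additive character: trivial on integral adeles, `b ↦ e (-Tr b)` on `F`. -/
def psiFin (u : FinAdele F) : ℂ :=
  if h : ∃ b : F, u - finIncl F b ∈ integralAdele F then
    Complex.exp ((-(2 * Real.pi) * (Algebra.trace ℚ F h.choose : ℝ) : ℝ) * Complex.I)
  else 1

end Whittaker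

end Fermat.Agent.LT
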