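import Fermat.Agent.LT.Whittaker.Bessel
import Mathlib.Analysis.SpecialFunctions.Gaussian.FourierTransform

/-!
# The kernel `exp (-A cdist)` in coordinates, and its horospherical Fourier transform

In coordinates `(a, s)` of the upper half-space the kernel is a Gaussian in `a`, whose integral and
Fourier transform over each horosphere are computed in closed form.
-/

set_option autoImplicit false

noncomputable section

open MeasureTheory Set GaussianFourier

namespace Fermat.Agent.LT.Whittaker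

/-- `s⁻³ exp (-A cosh d ((0,t),(a,s)))`. -/
def coordKer (A t : ℝ) (p : ℂ × ℝ) : ℝ :=
  (p.2 ^ 3)⁻¹ * Real.exp (-(A * ((‖p.1‖ ^ 2 + t ^ 2 + p.2 ^ 2) / (2 * t * p.2))))

/-- The kernel in coordinates is measurable. -/
theorem measurable_coordKer (A t : ℝ) : Measurable (coordKer A t) := by
  unfold coordKer; fun_prop

/-- The kernel in coordinates is nonnegative. -/
theorem coordKer_nonneg {A t : ℝ} {p : ℂ × ℝ} (hp : 0 < p.2) : 0 ≤ coordKer A t p :=
  mul_nonneg (inv_nonneg.mpr (pow_nonneg hp.le 3)) (Real.exp_pos _).le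

theorem coordKer_eq {A t s : ℝ} (hA : 0 < A) (ht : 0 < t) (hs : 0 < s) (a : ℂ) :
    coordKer A t (a, s) = (s ^ 3)⁻¹ * Real.exp (-(A * (t / s + s / t) / 2)) *
      Real.exp (-(A / (2 * t * s)) * ‖a‖ ^ 2) := by
  have := hA.ne'
  rw [coordKer, mul_assoc ((s ^ 3)⁻¹), ← Real.exp_add]
  congr 2
  field_simp
  ring

theorem integrable_coordKer_fst {A t s : ℝ} (hA : 0 < A) (ht : 0 < t) (hs : 0 < s) :
    Integrable fun a : ℂ => coordKer A t (a, s) := by
  simp only [coordKer_eq hA ht hs]
  refine Integrable.const_mul ?_ _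
  refine Integrable.of_integral_ne_zero ?_
  rw [integral_rexp_neg_mul_sq_norm (by positivity), Complex.finrank_real_complex]
  exact (Real.rpow_pos_of_pos (by positivity) _).ne'

theorem integral_coordKer_fst {A t s : ℝ} (hA : 0 < A) (ht : 0 < t) (hs : 0 < s) :
    ∫ a : ℂ, coordKer A t (a, s)
      = 2 * Real.pi * t / A * ((s ^ 2)⁻¹ * Real.exp (-(A * (t / s + s / t) / 2))) := by
  simp only [coordKer_eq hA ht hs]
  rw [integral_const_mul, integral_rexp_neg_mul_sq_norm (by positivity),
    Complex.finrank_real_complex]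
  norm_num
  field_simp

/-- The kernel in coordinates is integrable on the upper half space. -/
theorem integrableOn_coordKer {A t : ℝ} (hA : 0 < A) (ht : 0 < t) :
    IntegrableOn (coordKer A t) H3.upper := by
  have hu : H3.upper = (univ : Set ℂ) ×ˢ Ioi (0 : ℝ) := by ext p; simp [H3.upper]
  rw [IntegrableOn, hu, Measure.volume_eq_prod, ← Measure.prod_restrict, Measure.restrict_univ]
  refine (integrable_prod_iff' (measurable_coordKer A t).aestronglyMeasurable).mpr ⟨?_, ?_⟩
  · exact (ae_restrict_mem measurableSet_Ioi).mono fun s hs => integrable_coordKer_fst hA ht hs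
  · have hdom : IntegrableOn (fun s : ℝ => 2 * Real.pi * t / A *
        (8 / (A * t) ^ 2 * Real.exp (-(A / (2 * t)) * s))) (Ioi 0) :=
      ((exp_neg_integrableOn_Ioi 0
        (show (0 : ℝ) < A / (2 * t) by positivity)).const_mul _).const_mul _
    refine hdom.mono'
      (measurable_coordKer A t).norm.stronglyMeasurable.integral_prod_left'.aestronglyMeasurable ?_
    refine (ae_restrict_mem measurableSet_Ioi).mono fun s hs => ?_
    have hs' : (0 : ℝ) < s := hs
    rw [Real.norm_eq_abs, abs_of_nonneg (integral_nonneg fun _ => norm_nonneg _)]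
    simp only [Real.norm_eq_abs, abs_of_nonneg (coordKer_nonneg (p := (_, s)) hs')]
    rw [integral_coordKer_fst hA ht hs']
    refine mul_le_mul_of_nonneg_left ?_ (by positivity)
    set y := A * t / (2 * s) with hy
    have hy0 : 0 < y := by positivity
    have hexp : y ^ 2 / 2 ≤ Real.exp y := by
      have := Real.sum_le_exp_of_nonneg hy0.le 3
      simp [Finset.sum_range_succ] at this
      linarith
    have e : Real.exp (-(A * (t / s + s / t) / 2))
        = (Real.exp y)⁻¹ * Real.exp (-(A / (2 * t)) * s) := by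
      rw [← Real.exp_neg, ← Real.exp_add]
      congr 1
      rw [hy]; field_simp; ring
    rw [e, ← mul_assoc]
    refine mul_le_mul_of_nonneg_right ?_ (Real.exp_pos _).le
    calc (s ^ 2)⁻¹ * (Real.exp y)⁻¹ ≤ (s ^ 2)⁻¹ * (y ^ 2 / 2)⁻¹ := by
          gcongr
      _ = 8 / (A * t) ^ 2 := by rw [hy]; field_simp; ring

/-- The horospherical Fourier transform of the kernel. -/
theorem integral_coordKer_mul_exp {A t s : ℝ} (hA : 0 < A) (ht : 0 < t) (hs : 0 < s) (ξ : ℂ) :
    ∫ a : ℂ, (coordKer A t (a, s) : ℂ) * Complex.exp ((4 * Real.pi * (ξ * a).re : ℝ) * Complex.I)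
      = ((2 * Real.pi * t / A * ((s ^ 2)⁻¹ * Real.exp (-(A * (t / s + s / t) / 2) -
          (4 * Real.pi * ‖ξ‖) ^ 2 * t * s / (2 * A))) : ℝ) : ℂ) := by
  set b : ℝ := A / (2 * t * s) with hb
  have hb0 : 0 < b := by positivity
  have h := integral_cexp_neg_mul_sq_norm_add (V := ℂ) (b := (b : ℂ)) (by simpa using hb0)
    Complex.I ((4 * Real.pi : ℝ) • (starRingEnd ℂ) ξ)
  have e : ∀ a : ℂ, (coordKer A t (a, s) : ℂ) *
      Complex.exp ((4 * Real.pi * (ξ * a).re : ℝ) * Complex.I)
      = (((s ^ 3)⁻¹ * Real.exp (-(A * (t / s + s / t) / 2)) : ℝ) : ℂ) *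
        Complex.exp (-(b : ℂ) * (‖a‖ : ℂ) ^ 2
          + Complex.I * (inner ℝ ((4 * Real.pi : ℝ) • (starRingEnd ℂ) ξ) a : ℝ)) := by
    intro a
    rw [coordKer_eq hA ht hs, real_inner_smul_left, Complex.inner, Complex.conj_conj,
      mul_comm a ξ, Complex.exp_add]
    push_cast
    rw [hb]
    push_cast
    ring
  simp only [e]
  rw [integral_const_mul, h, Complex.finrank_real_complex, norm_smul, RCLike.norm_conj,
    Real.norm_of_nonneg (by positivity : (0 : ℝ) ≤ 4 * Real.pi)]
  norm_num
  rw [sub_eq_add_neg, Complex.exp_add, hb]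
  push_cast
  have hAc : (A : ℂ) ≠ 0 := Complex.ofReal_ne_zero.mpr hA.ne'
  have htc : (t : ℂ) ≠ 0 := Complex.ofReal_ne_zero.mpr ht.ne'
  have hsc : (s : ℂ) ≠ 0 := Complex.ofReal_ne_zero.mpr hs.ne'
  field_simp
  congr 1
  ring

end Fermat.Agent.LT.Whittaker
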