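import Mathlib.Analysis.Fourier.AddCircleMulti
import Mathlib.Topology.Maps.OpenQuotient

/-!
# Fourier series of `ℤ^ι`-periodic continuous functions, over the unit box

Coefficients over the unit box, their behaviour under translation, and pointwise summation of the
series when they are summable.
-/

set_option autoImplicit false

noncomputable section

open MeasureTheory Set

namespace Fermat.Agent.LT.Whittaker

variable {ι : Type*} [Fintype ι]

/-- The half-open unit box with lower corner `a`. -/
def boxAt (a : ι → ℝ) : Set (ι → ℝ) := {u | ∀ i, u i ∈ Ioc (a i) (a i + 1)}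

/-- The half-open unit box. -/
def box (ι : Type*) [Fintype ι] : Set (ι → ℝ) := {u | ∀ i, u i ∈ Ioc (0 : ℝ) 1}

theorem box_eq : box ι = boxAt (0 : ι → ℝ) := by simp [box, boxAt]

theorem box_eq_pi : box ι = Set.univ.pi fun _ : ι => Ioc (0 : ℝ) 1 := by
  ext u; simp [box, forall_and]

/-- The box is measurable. -/
theorem measurableSet_box (ι : Type*) [Fintype ι] : MeasurableSet (box ι) := by
  rw [box_eq_pi]
  exact MeasurableSet.univ_pi fun _ => measurableSet_Ioc

/-- The unit box has volume one. -/
theorem volume_box : volume (box ι) = 1 := by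
  rw [box_eq_pi, volume_pi_pi]
  simp

/-- The box has finite volume. -/
theorem isFiniteMeasure_box : IsFiniteMeasure (volume.restrict (box ι)) :=
  isFiniteMeasure_restrict.mpr (by rw [volume_box]; exact ENNReal.one_ne_top)

/-- `e (n · u)`. -/
def torusChar (n : ι → ℤ) (u : ι → ℝ) : ℂ :=
  Complex.exp ((2 * Real.pi * ∑ i, (n i : ℝ) * u i : ℝ) * Complex.I)

/-- Torus characters are unitary. -/
theorem norm_torusChar (n : ι → ℤ) (u : ι → ℝ) : ‖torusChar n u‖ = 1 :=
  Complex.norm_exp_ofReal_mul_I _

/-- Torus characters are additive. -/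
theorem torusChar_add (n : ι → ℤ) (u v : ι → ℝ) :
    torusChar n (u + v) = torusChar n u * torusChar n v := by
  simp only [torusChar, ← Complex.exp_add, Pi.add_apply, mul_add, Finset.sum_add_distrib]
  congr 1
  push_cast
  ring

/-- Torus characters are continuous. -/
theorem continuous_torusChar (n : ι → ℤ) : Continuous (torusChar n) := by
  unfold torusChar; fun_prop

theorem mFourier_coe (n : ι → ℤ) (u : ι → ℝ) :
    UnitAddTorus.mFourier n (fun i => (u i : UnitAddCircle)) = torusChar n u := by
  simp only [UnitAddTorus.mFourier, ContinuousMap.coe_mk, fourier_coe_apply, torusChar,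
    ← Complex.exp_sum]
  congr 1
  push_cast
  rw [Finset.mul_sum, Finset.sum_mul]
  exact Finset.sum_congr rfl fun i _ => by ring

/-- `h` is invariant under `ℤ^ι`. -/
def IsPeriodic {E : Type*} (h : (ι → ℝ) → E) : Prop :=
  ∀ (u : ι → ℝ) (m : ι → ℤ), h (fun i => u i + m i) = h u

/-- The function on the torus. -/
def toTorus {E : Type*} (h : (ι → ℝ) → E) (p : UnitAddTorus ι) : E :=
  h fun i => (AddCircle.equivIoc 1 0 (p i)).1

omit [Fintype ι] in
theorem toTorus_coe {E : Type*} {h : (ι → ℝ) → E} (hh : IsPeriodic h) (u : ι → ℝ) :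
    toTorus h (fun i => (u i : UnitAddCircle)) = h u := by
  have hm : ∀ i, ∃ m : ℤ, (AddCircle.equivIoc (1 : ℝ) 0 (u i : UnitAddCircle)).1 = u i + m := by
    intro i
    have h1 := (AddCircle.equivIoc (1 : ℝ) 0).symm_apply_apply (u i : UnitAddCircle)
    have h2 : (((AddCircle.equivIoc (1 : ℝ) 0 (u i : UnitAddCircle)).1 : ℝ) : UnitAddCircle)
        = (u i : UnitAddCircle) := h1
    rw [QuotientAddGroup.eq_iff_sub_mem, AddSubgroup.mem_zmultiples_iff] at h2
    obtain ⟨m, hm⟩ := h2
    exact ⟨m, by rw [zsmul_eq_mul, mul_one] at hm; linarith⟩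
  choose m hm using hm
  show h _ = _
  rw [show (fun i => (AddCircle.equivIoc (1 : ℝ) 0 (u i : UnitAddCircle)).1) = fun i => u i + m i
    from funext hm, hh]

theorem integral_boxAt {E : Type*} [NormedAddCommGroup E] [NormedSpace ℝ E]
    {h : (ι → ℝ) → E} (hh : IsPeriodic h) (a : ι → ℝ) :
    ∫ u in boxAt a, h u = ∫ u in box ι, h u := by
  have h1 := (UnitAddTorus.integral_preimage (toTorus h) a).symm.trans
    (UnitAddTorus.integral_preimage (toTorus h) 0)
  simp only [toTorus_coe hh] at h1
  rw [box_eq]
  exact h1

/-- The integral of a periodic function over the box is translation invariant. -/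
theorem integral_box_add {E : Type*} [NormedAddCommGroup E] [NormedSpace ℝ E]
    {h : (ι → ℝ) → E} (hh : IsPeriodic h) (s : ι → ℝ) :
    ∫ u in box ι, h (u + s) = ∫ u in box ι, h u := by
  have e : (fun u : ι → ℝ => u + s) ⁻¹' boxAt s = box ι := by
    ext u
    simp only [boxAt, box, mem_preimage, mem_ofPred_eq, Pi.add_apply, mem_Ioc]
    refine forall_congr' fun i => ?_
    constructor <;> intro hu <;> constructor <;> linarith [hu.1, hu.2]
  rw [← integral_boxAt hh s, ← e]
  exact (measurePreserving_add_right volume s).setIntegral_preimage_emb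
    (measurableEmbedding_addRight s) h (boxAt s)

/-- Torus characters are periodic. -/
theorem torusChar_periodic (n : ι → ℤ) : IsPeriodic (torusChar n) := by
  intro u m
  rw [show (fun i => u i + (m i : ℝ)) = u + fun i => (m i : ℝ) from rfl, torusChar_add]
  have : torusChar n (fun i => (m i : ℝ)) = 1 := by
    rw [torusChar, Complex.exp_eq_one_iff]
    exact ⟨∑ i, n i * m i, by push_cast; ring⟩
  rw [this, mul_one]

theorem torusChar_neg_mul (n : ι → ℤ) (u : ι → ℝ) : torusChar (-n) u * torusChar n u = 1 := by
  simp [torusChar, ← Complex.exp_add, Finset.sum_neg_distrib]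

/-- The `n`-th Fourier coefficient. -/
def boxCoeff (h : (ι → ℝ) → ℂ) (n : ι → ℤ) : ℂ := ∫ u in box ι, torusChar (-n) u * h u

/-- The zeroth coefficient is the integral over the box. -/
theorem boxCoeff_zero (h : (ι → ℝ) → ℂ) : boxCoeff h 0 = ∫ u in box ι, h u := by
  simp [boxCoeff, torusChar]

/-- The coefficient of a translate. -/
theorem boxCoeff_add {h : (ι → ℝ) → ℂ} (hh : IsPeriodic h) (n : ι → ℤ) (s : ι → ℝ) :
    boxCoeff (fun u => h (u + s)) n = torusChar n s * boxCoeff h n := by
  have hp : IsPeriodic fun u => torusChar (-n) u * h u := fun u m => by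
    simp only [torusChar_periodic (-n) u m, hh u m]
  calc boxCoeff (fun u => h (u + s)) n
      = ∫ u in box ι, torusChar n s * (torusChar (-n) (u + s) * h (u + s)) := by
        refine integral_congr_ae (Filter.Eventually.of_forall fun u => ?_)
        simp only [torusChar_add]
        rw [show torusChar n s * (torusChar (-n) u * torusChar (-n) s * h (u + s)) =
          (torusChar (-n) s * torusChar n s) * (torusChar (-n) u * h (u + s)) by ring,
          torusChar_neg_mul, one_mul]
    _ = torusChar n s * ∫ u in box ι, torusChar (-n) (u + s) * h (u + s) :=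
        integral_const_mul _ _
    _ = _ := by rw [integral_box_add hp s]; rfl

/-- A periodic continuous function with summable coefficients is the sum of its Fourier series. -/
theorem hasSum_boxCoeff {h : (ι → ℝ) → ℂ} (hh : IsPeriodic h) (hc : Continuous h)
    (hs : Summable (boxCoeff h)) (u : ι → ℝ) :
    HasSum (fun n => boxCoeff h n * torusChar n u) (h u) := by
  have hq : IsOpenQuotientMap fun (u : ι → ℝ) (i : ι) => (u i : UnitAddCircle) :=
    IsOpenQuotientMap.piMap fun _ => QuotientAddGroup.isOpenQuotientMap_mk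
  have hf : Continuous (toTorus h) := by
    rw [hq.isQuotientMap.continuous_iff]
    exact hc.congr fun v => (toTorus_coe hh v).symm
  have hcoef : ∀ n, UnitAddTorus.mFourierCoeff (toTorus h) n = boxCoeff h n := by
    intro n
    rw [UnitAddTorus.mFourierCoeff_eq_integral _ n 0, boxCoeff, box_eq]
    refine integral_congr_ae (Filter.Eventually.of_forall fun v => ?_)
    simp only [smul_eq_mul, mFourier_coe, toTorus_coe hh]
  have h1 := UnitAddTorus.hasSum_mFourier_series_apply_of_summable
    (f := ⟨toTorus h, hf⟩) (hs.congr fun n => (hcoef n).symm) (fun i => (u i : UnitAddCircle))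
  simpa only [ContinuousMap.coe_mk, hcoef, smul_eq_mul, mFourier_coe, toTorus_coe hh] using h1

/-- `∏_i r^{|n_i|}` is summable. -/
theorem summable_prod_pow_natAbs {r : ℝ} (h0 : 0 ≤ r) (h1 : r < 1) :
    ∀ d : ℕ, Summable fun n : Fin d → ℤ => ∏ i, r ^ (n i).natAbs := by
  intro d
  induction d with
  | zero => exact Summable.of_finite
  | succ d ih =>
    have hz : Summable fun k : ℤ => r ^ k.natAbs := by
      refine Summable.of_nat_of_neg ?_ ?_ <;> simpa using summable_geometric_of_lt_one h0 h1
    have := hz.mul_of_nonneg ih (fun k => pow_nonneg h0 _)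
      (fun n => Finset.prod_nonneg fun i _ => pow_nonneg h0 _)
    refine ((Fin.consEquiv fun _ => ℤ).summable_iff).mp (this.congr fun p => ?_)
    simp [Fin.prod_univ_succ]

end Fermat.Agent.LT.Whittaker
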