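import Fermat.Agent.LT.Whittaker.Defs
import Fermat.Agent.LT.Whittaker.Torus

/-!
# The trace pairing at the infinite places and the torus attached to a `ℚ`-basis

A `ℚ`-basis of a totally complex field gives real coordinates on `ℂ^places` in which the characters
`z ↦ e (Tr (ξ z))`, for `ξ` in the dual lattice, are the characters of the standard torus.
-/

set_option autoImplicit false

noncomputable section

open NumberField (InfinitePlace)
open scoped ComplexConjugate

namespace Fermat.Agent.LT.Whittaker

variable {F : Type*} [Field F] [NumberField F] [NumberField.IsTotallyComplex F]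

open Classical in
/-- The trace as a sum over the complex places. -/
theorem trace_eq_sum_places (x : F) :
    (Algebra.trace ℚ F x : ℝ) = ∑ w : InfinitePlace F, 2 * (w.embedding x).re := by
  have h1 : ((Algebra.trace ℚ F x : ℝ) : ℂ) = ∑ φ : F →+* ℂ, φ x := by
    have := trace_eq_sum_embeddings (K := ℚ) (L := F) (E := ℂ) (x := x)
    rw [Complex.ofReal_ratCast, ← eq_ratCast (algebraMap ℚ ℂ), this]
    exact Fintype.sum_equiv (RingHom.equivRatAlgHom F ℂ).symm _ _ fun σ => rfl
  have h2 : ∑ φ : F →+* ℂ, φ x
      = ∑ w : InfinitePlace F, (w.embedding x + conj (w.embedding x)) := by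
    rw [← Finset.sum_fiberwise Finset.univ InfinitePlace.mk (fun φ : F →+* ℂ => φ x)]
    refine Finset.sum_congr rfl fun w _ => ?_
    have hne : w.embedding ≠ NumberField.ComplexEmbedding.conjugate w.embedding := fun h =>
      NumberField.IsTotallyComplex.complexEmbedding_not_isReal w.embedding
        (NumberField.ComplexEmbedding.isReal_iff.mpr h.symm)
    have : Finset.univ.filter (fun φ : F →+* ℂ => InfinitePlace.mk φ = w)
        = {w.embedding, NumberField.ComplexEmbedding.conjugate w.embedding} := by
      ext φ
      simp only [Finset.mem_filter, Finset.mem_univ, true_and, Finset.mem_insert,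
        Finset.mem_singleton]
      constructor
      · intro h
        rw [← InfinitePlace.mk_embedding w, InfinitePlace.mk_eq_iff] at h
        rcases h with h | h
        · exact Or.inl h
        · exact Or.inr (by rw [← h]; exact (star_star φ).symm)
      · rintro (rfl | rfl)
        · exact w.mk_embedding
        · rw [InfinitePlace.mk_conjugate_eq, w.mk_embedding]
    rw [this, Finset.sum_pair hne]
    rfl
  have h3 := congrArg Complex.re (h1.trans h2)
  rw [Complex.ofReal_re, Complex.re_sum] at h3
  rw [h3]
  refine Finset.sum_congr rfl fun w _ => ?_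
  simp [two_mul]

omit [NumberField F] in
omit [NumberField.IsTotallyComplex F] in
/-- The norm of an embedded element is its value at the place. -/
theorem norm_embedding (w : InfinitePlace F) (x : F) : ‖w.embedding x‖ = w x :=
  InfinitePlace.norm_embedding_eq w x

omit [NumberField.IsTotallyComplex F] in
/-- Moving a factor of the frequency into the variable. -/
theorem pairing_mul (ξ η : F) (z : InfinitePlace F → ℂ) :
    pairing (ξ * η) z = pairing ξ (fun w => w.embedding η * z w) := by
  simp [pairing, mul_assoc]

/-- On embedded elements the pairing is the trace form. -/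
theorem pairing_embedding (ξ b : F) :
    pairing ξ (fun w => w.embedding b) = (Algebra.trace ℚ F (ξ * b) : ℝ) := by
  rw [trace_eq_sum_places]
  simp [pairing]

omit [NumberField.IsTotallyComplex F] in
open Classical in
/-- The pairing on a vector supported at one place. -/
theorem pairing_update_zero (ξ : F) (w : InfinitePlace F) (a : ℂ) :
    pairing ξ (Pi.single w a) = 2 * (w.embedding ξ * a).re := by
  rw [pairing, Finset.sum_eq_single w]
  · simp
  · intro v _ hv; simp [hv]
  · simp

section Basis

variable (b : Module.Basis (Fin (Module.finrank ℚ F)) ℚ F)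

/-- The real coordinates attached to a `ℚ`-basis. -/
def boxEmb : (Fin (Module.finrank ℚ F) → ℝ) →ₗ[ℝ] (InfinitePlace F → ℂ) where
  toFun u w := ∑ i, (u i : ℂ) * w.embedding (b i)
  map_add' u v := by
    funext w
    simp [add_mul, Finset.sum_add_distrib]
  map_smul' c u := by
    funext w
    simp [Finset.mul_sum, mul_assoc]

omit [NumberField.IsTotallyComplex F] in
/-- Coordinates of `boxEmb`. -/
theorem boxEmb_apply (u : Fin (Module.finrank ℚ F) → ℝ) (w : InfinitePlace F) :
    boxEmb b u w = ∑ i, (u i : ℂ) * w.embedding (b i) := rfl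

/-- The frequencies. -/
def freq (n : Fin (Module.finrank ℚ F) → ℤ) : F := ∑ i, (n i : ℚ) • b.traceDual i

omit [NumberField.IsTotallyComplex F] in
/-- The frequencies are read off by the trace against the basis. -/
theorem trace_freq_mul (n : Fin (Module.finrank ℚ F) → ℤ) (j : Fin (Module.finrank ℚ F)) :
    Algebra.trace ℚ F (freq b n * b j) = n j := by
  simp [freq, Finset.sum_mul]

omit [NumberField.IsTotallyComplex F] in
/-- The frequency map is injective. -/
theorem freq_injective : Function.Injective (freq b) := fun m n h => funext fun j => by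
  have h1 := trace_freq_mul b m j
  rw [h, trace_freq_mul] at h1
  exact_mod_cast h1.symm

theorem pairing_boxEmb (ξ : F) (u : Fin (Module.finrank ℚ F) → ℝ) :
    pairing ξ (boxEmb b u) = ∑ i, u i * (Algebra.trace ℚ F (ξ * b i) : ℝ) := by
  simp only [← pairing_embedding, pairing, boxEmb_apply, Finset.mul_sum, Complex.re_sum]
  rw [Finset.sum_comm]
  refine Finset.sum_congr rfl fun i _ => Finset.sum_congr rfl fun w _ => ?_
  simp [Complex.mul_re, Complex.mul_im]
  ring

theorem pairing_freq (n : Fin (Module.finrank ℚ F) → ℤ) (u : Fin (Module.finrank ℚ F) → ℝ) :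
    pairing (freq b n) (boxEmb b u) = ∑ i, (n i : ℝ) * u i := by
  rw [pairing_boxEmb]
  exact Finset.sum_congr rfl fun i _ => by rw [trace_freq_mul]; push_cast; ring

/-- In box coordinates the characters of the lattice are those of the torus. -/
theorem expChar_freq (n : Fin (Module.finrank ℚ F) → ℤ) (u : Fin (Module.finrank ℚ F) → ℝ) :
    expChar (freq b n) (boxEmb b u) = torusChar n u := by
  rw [expChar, pairing_freq, torusChar]

/-- Box coordinates are bijective. -/
theorem boxEmb_bijective : Function.Bijective (boxEmb b) := by
  have hinj : Function.Injective (boxEmb b) := by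
    refine (injective_iff_map_eq_zero (boxEmb b)).mpr fun u hu => funext fun j => ?_
    have h1 := pairing_boxEmb b (b.traceDual j) u
    rw [hu] at h1
    rw [show pairing (b.traceDual j) 0 = 0 by simp [pairing],
      Finset.sum_eq_single j (fun i _ hi => by simp [hi]) (by simp)] at h1
    simpa using h1.symm
  refine ⟨hinj, LinearMap.range_eq_top.mp (Submodule.eq_top_of_finrank_eq ?_)⟩
  rw [LinearMap.finrank_range_of_inj hinj, Module.finrank_pi_fintype,
    Module.finrank_pi_fintype, Module.finrank_self, Complex.finrank_real_complex]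
  simp [NumberField.IsTotallyComplex.finrank,
      InfinitePlace.card_eq_nrRealPlaces_add_nrComplexPlaces,
    NumberField.IsTotallyComplex.nrRealPlaces_eq_zero, mul_comm]

/-- The inverse of `boxEmb`. -/
def boxInv : (InfinitePlace F → ℂ) → (Fin (Module.finrank ℚ F) → ℝ) :=
  (LinearEquiv.ofBijective (boxEmb b) (boxEmb_bijective b)).symm

/-- `boxInv` is a right inverse of `boxEmb`. -/
theorem boxEmb_boxInv (z : InfinitePlace F → ℂ) : boxEmb b (boxInv b z) = z :=
  (LinearEquiv.ofBijective (boxEmb b) (boxEmb_bijective b)).apply_symm_apply z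

/-- The lattice characters expressed through `boxInv`. -/
theorem expChar_freq_eq (n : Fin (Module.finrank ℚ F) → ℤ) (z : InfinitePlace F → ℂ) :
    expChar (freq b n) z = torusChar n (boxInv b z) := by
  rw [← expChar_freq, boxEmb_boxInv]

/-- The frequency controls the index. -/
theorem abs_le_sum_freq (n : Fin (Module.finrank ℚ F) → ℤ) (j : Fin (Module.finrank ℚ F)) :
    |(n j : ℝ)| ≤ ∑ w : InfinitePlace F, 2 * (w (b j) * w (freq b n)) := by
  have h := pairing_embedding (freq b n) (b j)
  rw [trace_freq_mul] at h
  have h' : (n j : ℝ) = pairing (freq b n) (fun w => w.embedding (b j)) := by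
    rw [h]; norm_num
  rw [h', pairing]
  refine (Finset.abs_sum_le_sum_abs _ _).trans (Finset.sum_le_sum fun w _ => ?_)
  rw [abs_mul, abs_two]
  refine mul_le_mul_of_nonneg_left ((Complex.abs_re_le_norm _).trans ?_) two_pos.le
  rw [norm_mul, norm_embedding, norm_embedding, mul_comm]

/-- Exponential decay in the frequency is summable. -/
theorem summable_exp_freq {c : ℝ} (hc : 0 < c) :
    Summable fun n => Real.exp (-(c * ∑ w : InfinitePlace F, w (freq b n))) := by
  set B : ℝ := 1 + ∑ j, ∑ w : InfinitePlace F, 2 * w (b j) with hB
  have hB0 : 0 < B := add_pos_of_pos_of_nonneg one_pos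
    (Finset.sum_nonneg fun j _ => Finset.sum_nonneg fun w _ => by positivity)
  refine Summable.of_nonneg_of_le (fun n => (Real.exp_pos _).le) (fun n => ?_)
    (summable_prod_pow_natAbs (Real.exp_pos (-(c / B))).le
      (Real.exp_lt_one_iff.mpr (neg_lt_zero.mpr (div_pos hc hB0))) (Module.finrank ℚ F))
  have hsum : ∑ j, |(n j : ℝ)| ≤ B * ∑ w : InfinitePlace F, w (freq b n) := by
    calc ∑ j, |(n j : ℝ)| ≤ ∑ j, ∑ w : InfinitePlace F, 2 * (w (b j) * w (freq b n)) :=
          Finset.sum_le_sum fun j _ => abs_le_sum_freq b n j
      _ ≤ ∑ j, (∑ w : InfinitePlace F, 2 * w (b j)) * ∑ w : InfinitePlace F, w (freq b n) := by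
          refine Finset.sum_le_sum fun j _ => ?_
          rw [Finset.sum_mul]
          refine Finset.sum_le_sum fun w _ => ?_
          rw [← mul_assoc]
          gcongr
          exact Finset.single_le_sum (fun v _ => apply_nonneg v (freq b n)) (Finset.mem_univ w)
      _ ≤ B * _ := by
          rw [← Finset.sum_mul]
          gcongr
          rw [hB]; linarith
  have e : ∏ i, Real.exp (-(c / B)) ^ (n i).natAbs
      = Real.exp (-(c / B) * ∑ i, |(n i : ℝ)|) := by
    rw [Finset.mul_sum, Real.exp_sum]
    refine Finset.prod_congr rfl fun i _ => ?_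
    rw [← Real.exp_nat_mul, mul_comm, Nat.cast_natAbs, Int.cast_abs]
  rw [e, Real.exp_le_exp, neg_mul, neg_le_neg_iff]
  calc c / B * ∑ i, |(n i : ℝ)| ≤ c / B * (B * ∑ w : InfinitePlace F, w (freq b n)) :=
        mul_le_mul_of_nonneg_left hsum (div_pos hc hB0).le
    _ = _ := by field_simp

end Basis

end Fermat.Agent.LT.Whittaker
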