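import Fermat.Agent.LT.Whittaker.Adele
import Fermat.Agent.LT.Whittaker.Kernel
import Fermat.Agent.LT.Whittaker.Lattice

/-!
# The Fourier coefficients along a stabilising torus

Restricting to `ptAt z t` for `z` in a torus of translations fixing the coset gives periodic
functions; their coefficients satisfy the eigen equation at every infinite place.
-/

set_option autoImplicit false

noncomputable section

open MeasureTheory Set
open NumberField (InfinitePlace)
open scoped ComplexConjugate

namespace Fermat.Agent.LT.Whittaker

variable {F : Type*} [Field F] [NumberField F] [NumberField.IsTotallyComplex F] {U : Level F}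
  {φ : Y U → ℂ} {c : GLFin F ⧸ U.toSubgroup}
  (b : Module.Basis (Fin (Module.finrank ℚ F)) ℚ F)

/-- The restriction to the torus at height `t`. -/
def torusFn (φ : Y U → ℂ) (c : GLFin F ⧸ U.toSubgroup) (t : InfinitePlace F → ℝ)
    (u : Fin (Module.finrank ℚ F) → ℝ) : ℂ :=
  φ (ptAt (boxEmb b u) t, c)

omit [NumberField.IsTotallyComplex F] in
/-- The function on the torus attached to an automorphic function is periodic. -/
theorem torusFn_periodic (hφ : IsAutomorphic φ) (hb : ∀ i, glIncl F (unip (b i)) • c = c)
    {t : InfinitePlace F → ℝ} (ht : ∀ w, 0 < t w) : IsPeriodic (torusFn b φ c t) := by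
  intro u m
  set β : F := ∑ i, (m i) • b i with hβ
  have hmem : β ∈ stabAdd c :=
    (stabAdd c).sum_mem fun i _ => (stabAdd c).zsmul_mem (hb i) _
  have hz : boxEmb b (fun i => u i + m i) = boxEmb b u + fun w => w.embedding β := by
    rw [show (fun i => u i + (m i : ℝ)) = u + fun i => (m i : ℝ) from rfl, map_add]
    congr 1
    funext w
    rw [boxEmb_apply, hβ, map_sum]
    exact Finset.sum_congr rfl fun i _ => by simp [zsmul_eq_mul]
  show φ (ptAt _ t, c) = φ (ptAt _ t, c)
  conv_lhs => rw [hz, ← (show glIncl F (unip β) • c = c from hmem)]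
  exact phi_unip hφ β _ ht c

omit [NumberField F] in
omit [NumberField.IsTotallyComplex F] in
/-- The point with given coordinates depends continuously on its translation part. -/
theorem continuous_ptAt {t : InfinitePlace F → ℝ} (ht : ∀ w, 0 < t w) :
    Continuous fun z : InfinitePlace F → ℂ => ptAt z t := by
  refine continuous_pi fun w => ?_
  exact H3.continuousOn_pt.comp_continuous (f := fun z : InfinitePlace F → ℂ => (z w, t w))
    ((continuous_apply w).prodMk continuous_const) (fun z => ht w)

omit [NumberField.IsTotallyComplex F] in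
/-- The function on the torus attached to a cusp eigenfunction is continuous. -/
theorem continuous_torusFn (hφ : IsCuspEigen φ) {t : InfinitePlace F → ℝ} (ht : ∀ w, 0 < t w) :
    Continuous (torusFn b φ c t) :=
  (hφ.continuous c).comp ((continuous_ptAt ht).comp
    (LinearMap.continuous_of_finiteDimensional (boxEmb b)))

theorem boxInv_add_single (z : InfinitePlace F → ℂ) (u : Fin (Module.finrank ℚ F) → ℝ)
    (hz : boxEmb b u = z) (s : InfinitePlace F → ℂ) :
    boxEmb b (u + boxInv b s) = z + s := by
  rw [map_add, boxEmb_boxInv, hz]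

open Classical in
/-- The eigen equation on the torus, in coordinates. -/
theorem torusFn_eigen (hφ : IsCuspEigen φ) (w : InfinitePlace F) {t : InfinitePlace F → ℝ}
    (ht : ∀ v, 0 < t v) {A : ℝ} (hA : 0 < A) (u : Fin (Module.finrank ℚ F) → ℝ) :
    ∫ p in H3.upper, (coordKer A (t w) p : ℂ) *
        torusFn b φ c (Function.update t w p.2) (u + boxInv b (Pi.single w p.1))
      = (sphEigen A : ℂ) * torusFn b φ c t u := by
  set z := boxEmb b u with hz
  have hu : H3.upper = H3.upper := rfl
  have hcont : Continuous fun Q => (Real.exp (-(A * H3.cdist (ptAt z t w) Q)) : ℂ) *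
      φ (Function.update (ptAt z t) w Q, c) := by
    refine Continuous.mul ?_ ((hφ.continuous c).comp (continuous_const.update w continuous_id))
    exact Complex.continuous_ofReal.comp (Real.continuous_exp.comp
      ((continuous_const.mul (H3.continuous_cdist.comp
        (continuous_const.prodMk continuous_id))).neg))
  have h := hφ.eigen w (ptAt z t, c) A hA
  simp only at h
  rw [H3.integral_vol hcont.stronglyMeasurable] at h
  rw [show torusFn b φ c t u = φ (ptAt z t, c) from rfl, ← h]
  -- translate the horizontal variable
  set T : ℂ × ℝ → ℂ × ℝ := fun p => p + (z w, 0) with hT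
  have hpre : T ⁻¹' H3.upper = H3.upper := by ext p; simp [hT, H3.upper]
  have hmp : MeasurePreserving T (volume : Measure (ℂ × ℝ)) volume := by
    have := H3.isAddHaar_volume_prod
    exact measurePreserving_add_right volume _
  have hme : MeasurableEmbedding T := measurableEmbedding_addRight (z w, (0 : ℝ))
  conv_rhs => rw [← hmp.setIntegral_preimage_emb hme, hpre]
  refine setIntegral_congr_fun H3.measurableSet_upper fun p hp => ?_
  have hp' : (0 : ℝ) < p.2 := hp
  have hdist : H3.cdist (ptAt z t w) (H3.pt (T p).1 (T p).2)
      = (‖p.1‖ ^ 2 + t w ^ 2 + p.2 ^ 2) / (2 * t w * p.2) := by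
    rw [ptAt, H3.cdist_pt _ _ (ht w) (by simpa [hT] using hp')]
    simp [hT, Complex.normSq_eq_norm_sq]
  have hupd : Function.update (ptAt z t) w (H3.pt (T p).1 (T p).2)
      = ptAt (boxEmb b (u + boxInv b (Pi.single w p.1))) (Function.update t w p.2) := by
    rw [boxInv_add_single b z u hz.symm]
    funext v
    rcases eq_or_ne v w with rfl | hv
    · simp [ptAt, hT, add_comm]
    · simp [ptAt, hv]
  rw [hdist, hupd, show (T p).2 = p.2 by simp [hT], Complex.real_smul, coordKer]
  push_cast [torusFn]
  ring

/-- The coefficient. -/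
def torusCoeff (φ : Y U → ℂ) (c : GLFin F ⧸ U.toSubgroup)
    (n : Fin (Module.finrank ℚ F) → ℤ) (t : InfinitePlace F → ℝ) : ℂ :=
  boxCoeff (torusFn b φ c t) n

omit [NumberField.IsTotallyComplex F] in
/-- Fourier coefficients are bounded by a bound of the function. -/
theorem norm_torusCoeff_le {C : ℝ} (hC : ∀ y, ‖φ y‖ ≤ C)
    (n : Fin (Module.finrank ℚ F) → ℤ) (t : InfinitePlace F → ℝ) :
    ‖torusCoeff b φ c n t‖ ≤ C := by
  refine (norm_setIntegral_le_of_norm_le_const (C := C)
    (by rw [volume_box]; exact ENNReal.one_lt_top) fun u _ => ?_).trans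
      (by simp [Measure.real, volume_box])
  rw [norm_mul, norm_torusChar, one_mul]
  exact hC _

open Classical in
theorem continuousOn_torusFn_update (hφ : IsCuspEigen φ) (w : InfinitePlace F)
    {t : InfinitePlace F → ℝ} (ht : ∀ v, 0 < t v) :
    ContinuousOn (fun q : (Fin (Module.finrank ℚ F) → ℝ) × (ℂ × ℝ) =>
      torusFn b φ c (Function.update t w q.2.2) (q.1 + boxInv b (Pi.single w q.2.1)))
      (univ ×ˢ H3.upper) := by
  have hinv : Continuous (boxInv b) :=
    LinearMap.continuous_of_finiteDimensional
      ((LinearEquiv.ofBijective (boxEmb b) (boxEmb_bijective b)).symm : (InfinitePlace F → ℂ) →ₗ[ℝ]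
        (Fin (Module.finrank ℚ F) → ℝ))
  have hz : Continuous fun q : (Fin (Module.finrank ℚ F) → ℝ) × (ℂ × ℝ) =>
      boxEmb b (q.1 + boxInv b (Pi.single w q.2.1)) := by
    refine (LinearMap.continuous_of_finiteDimensional (boxEmb b)).comp
      (continuous_fst.add (hinv.comp ?_))
    exact (continuous_single w).comp (continuous_fst.comp continuous_snd)
  refine (hφ.continuous c).comp_continuousOn (continuousOn_pi.mpr fun v => ?_)
  refine H3.continuousOn_pt.comp
    (f := fun q : (Fin (Module.finrank ℚ F) → ℝ) × (ℂ × ℝ) =>
      (boxEmb b (q.1 + boxInv b (Pi.single w q.2.1)) v, Function.update t w q.2.2 v)) ?_ ?_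
  · exact (((continuous_apply v).comp hz).prodMk ((continuous_apply v).comp
      (continuous_const.update w (continuous_snd.comp continuous_snd)))).continuousOn
  · rintro q ⟨-, hq⟩
    show 0 < Function.update t w q.2.2 v
    rcases eq_or_ne v w with rfl | hv
    · rw [Function.update_self]; exact hq
    · simpa [hv] using ht v

open Classical in
/-- The eigen equation for the coefficient. -/
theorem torusCoeff_eigen (hφ : IsCuspEigen φ) (hb : ∀ i, glIncl F (unip (b i)) • c = c)
    (n : Fin (Module.finrank ℚ F) → ℤ) (w : InfinitePlace F) {t : InfinitePlace F → ℝ}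
    (ht : ∀ v, 0 < t v) {A : ℝ} (hA : 0 < A) :
    ∫ s in Ioi (0 : ℝ), ((2 * Real.pi * t w / A * ((s ^ 2)⁻¹ *
        Real.exp (-(A * (t w / s + s / t w) / 2) -
          (4 * Real.pi * w (freq b n)) ^ 2 * t w * s / (2 * A))) : ℝ) : ℂ) *
        torusCoeff b φ c n (Function.update t w s)
      = (sphEigen A : ℂ) * torusCoeff b φ c n t := by
  obtain ⟨C, hC⟩ := hφ.bounded
  set G : (Fin (Module.finrank ℚ F) → ℝ) × (ℂ × ℝ) → ℂ := fun q =>
      torusChar (-n) q.1 * ((coordKer A (t w) q.2 : ℂ) *
        torusFn b φ c (Function.update t w q.2.2) (q.1 + boxInv b (Pi.single w q.2.1))) with hG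
  have hGint : Integrable G
      ((volume.restrict (box (Fin (Module.finrank ℚ F)))).prod (volume.restrict H3.upper)) := by
    have := isFiniteMeasure_box (ι := Fin (Module.finrank ℚ F))
    have hdom : Integrable (fun q : (Fin (Module.finrank ℚ F) → ℝ) × (ℂ × ℝ) =>
        (1 : ℝ) * (coordKer A (t w) q.2 * C))
        ((volume.restrict (box (Fin (Module.finrank ℚ F)))).prod (volume.restrict H3.upper)) :=
      Integrable.mul_prod (integrable_const 1) ((integrableOn_coordKer hA (ht w)).mul_const C)
    refine hdom.mono' ?_ ?_
    · rw [Measure.prod_restrict]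
      refine AEStronglyMeasurable.mul ?_ (AEStronglyMeasurable.mul ?_ ?_)
      · exact ((continuous_torusChar (-n)).comp continuous_fst).aestronglyMeasurable
      · exact (Complex.measurable_ofReal.comp ((measurable_coordKer A (t w)).comp
          measurable_snd)).aestronglyMeasurable
      · exact (((continuousOn_torusFn_update b hφ w ht).mono
          (Set.prod_mono (subset_univ _) subset_rfl)).aestronglyMeasurable
            ((measurableSet_box _).prod H3.measurableSet_upper))
    · rw [Measure.prod_restrict]
      refine (ae_restrict_mem ?_).mono fun q hq => ?_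
      · exact (measurableSet_box _).prod H3.measurableSet_upper
      rw [hG, norm_mul, norm_torusChar, one_mul, norm_mul, Complex.norm_real, Real.norm_eq_abs,
        abs_of_nonneg (coordKer_nonneg hq.2), one_mul]
      exact mul_le_mul_of_nonneg_left (hC _) (coordKer_nonneg hq.2)
  have hswap := integral_integral_swap (f := fun u p => G (u, p)) hGint
  have hL : ∫ u in box (Fin (Module.finrank ℚ F)), ∫ p in H3.upper, G (u, p)
      = (sphEigen A : ℂ) * torusCoeff b φ c n t := by
    rw [torusCoeff, boxCoeff, ← integral_const_mul]
    refine integral_congr_ae (Filter.Eventually.of_forall fun u => ?_)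
    simp only [hG]
    rw [integral_const_mul, torusFn_eigen b hφ w ht hA u]
    ring
  set H : ℂ × ℝ → ℂ := fun p => (coordKer A (t w) p : ℂ) *
    Complex.exp ((4 * Real.pi * (w.embedding (freq b n) * p.1).re : ℝ) * Complex.I) *
    torusCoeff b φ c n (Function.update t w p.2) with hH
  have hinner : ∀ p ∈ H3.upper, ∫ u in box (Fin (Module.finrank ℚ F)), G (u, p) = H p :=
      fun p hp => by
    have hpos : ∀ v, 0 < Function.update t w p.2 v := fun v => by
      rcases eq_or_ne v w with rfl | hv
      · rw [Function.update_self]; exact hp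
      · simpa [hv] using ht v
    simp only [hG, hH]
    rw [show (fun u => torusChar (-n) u * ((coordKer A (t w) p : ℂ) *
        torusFn b φ c (Function.update t w p.2) (u + boxInv b (Pi.single w p.1))))
      = fun u => (coordKer A (t w) p : ℂ) * (torusChar (-n) u *
        torusFn b φ c (Function.update t w p.2) (u + boxInv b (Pi.single w p.1))) from
        funext fun u => by ring, integral_const_mul, mul_assoc]
    congr 1
    have := boxCoeff_add (torusFn_periodic b hφ.automorphic hb hpos) n (boxInv b (Pi.single w p.1))
    rw [boxCoeff, ← expChar_freq_eq, expChar, pairing_update_zero] at this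
    rw [this]
    congr 3
    push_cast
    ring
  have hR : ∫ p in H3.upper, ∫ u in box (Fin (Module.finrank ℚ F)), G (u, p) =
      ∫ p in H3.upper, H p :=
    setIntegral_congr_fun H3.measurableSet_upper hinner
  rw [hswap, hR] at hL
  rw [← hL]
  have hu : H3.upper = (univ : Set ℂ) ×ˢ Ioi (0 : ℝ) := by ext p; simp [H3.upper]
  have hHint : Integrable H ((volume : Measure ℂ).prod (volume.restrict (Ioi (0 : ℝ)))) := by
    have h1 := hGint.swap.integral_prod_left
    have h2 : Integrable H (volume.restrict H3.upper) := by
      exact h1.congr ((ae_restrict_mem H3.measurableSet_upper).mono hinner)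
    rwa [hu, Measure.volume_eq_prod, ← Measure.prod_restrict, Measure.restrict_univ] at h2
  rw [hu, Measure.volume_eq_prod, ← Measure.prod_restrict, Measure.restrict_univ,
    integral_prod_symm _ hHint]
  refine setIntegral_congr_fun measurableSet_Ioi fun s hs => ?_
  simp only [hH]
  rw [integral_mul_const, integral_coordKer_mul_exp hA (ht w) hs, norm_embedding]

end Fermat.Agent.LT.Whittaker
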