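import Fermat.Agent.LT.Whittaker.Law
import Fermat.Agent.LT.Setup.Operators

/-!
# The Hecke recursion for the Whittaker function

The operator of a double coset with representatives `unip (r i) * dia a` and `dia a⁻¹` acts on
`A α = whit (dia α • c)` by `A ↦ (∑ i, psiFin (α r i)) A (α a) + A (α a⁻¹)`; at the bottom of the
support this gives the recursion and the multiplicativity of `A`.
-/

set_option autoImplicit false

noncomputable section

open NumberField (InfinitePlace)

namespace Fermat.Agent.LT.Whittaker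

variable {F : Type*} [Field F] [NumberField F] {U : Level F}

theorem doubleSet_right_mul {x g u : GLFin F} (hg : g ∈ doubleSet U x) (hu : u ∈ U.toSubgroup) :
    g * u ∈ doubleSet U x := by
  obtain ⟨p, hp, q, hq, rfl⟩ := hg
  exact ⟨p, hp, q * u, U.toSubgroup.mul_mem hq hu, by group⟩

theorem doubleSet_left_mul {x g u : GLFin F} (hu : u ∈ U.toSubgroup) (hg : g ∈ doubleSet U x) :
    u * g ∈ doubleSet U x := by
  obtain ⟨p, hp, q, hq, rfl⟩ := hg
  exact ⟨u * p, U.toSubgroup.mul_mem hu hp, q, hq, by group⟩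

/-- A complete list, without repetition, of the left cosets in `U x U`. -/
structure IsCosetList (U : Level F) (x : GLFin F) {ι : Type*} (s : ι → GLFin F) : Prop where
  injective : Function.Injective fun i => (s i : GLFin F ⧸ U.toSubgroup)
  mem : ∀ i, s i ∈ doubleSet U x
  exists_eq : ∀ g ∈ doubleSet U x, ∃ i, (g : GLFin F ⧸ U.toSubgroup) = s i

/-- The operator of a double coset as a sum over representatives. -/
theorem doubleOp_eq_sum {ι : Type*} [Fintype ι] {x : GLFin F} {s : ι → GLFin F}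
    (hs : IsCosetList U x s) (φ : Y U → ℂ) (P : InfinitePlace F → H3) (g : GLFin F) :
    doubleOp x φ (P, (g : GLFin F ⧸ U.toSubgroup))
      = ∑ i, φ (P, ((g * s i : GLFin F) : GLFin F ⧸ U.toSubgroup)) := by
  classical
  have hout : g⁻¹ * Quotient.out (g : GLFin F ⧸ U.toSubgroup) ∈ U.toSubgroup :=
    QuotientGroup.eq.mp (QuotientGroup.out_eq' (g : GLFin F ⧸ U.toSubgroup)).symm
  set u := g⁻¹ * Quotient.out (g : GLFin F ⧸ U.toSubgroup) with hu
  let e : ι → GLFin F ⧸ U.toSubgroup := fun i => ((g * s i : GLFin F) : GLFin F ⧸ U.toSubgroup)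
  have he : Function.Injective e := fun i j h => by
    refine hs.injective (QuotientGroup.eq.mpr ?_)
    simpa [e, mul_assoc] using QuotientGroup.eq.mp h
  have hiff : ∀ b : GLFin F ⧸ U.toSubgroup,
      (Quotient.out (g : GLFin F ⧸ U.toSubgroup))⁻¹ * Quotient.out b ∈ doubleSet U x ↔
        b ∈ Finset.univ.image e := by
    intro b
    have hg : Quotient.out (g : GLFin F ⧸ U.toSubgroup) = g * u := by simp [hu]
    rw [hg, Finset.mem_image]
    constructor
    · intro h
      obtain ⟨i, hi⟩ := hs.exists_eq (g⁻¹ * Quotient.out b) (by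
        have := doubleSet_left_mul hout h
        rwa [show u * ((g * u)⁻¹ * Quotient.out b) = g⁻¹ * Quotient.out b by group] at this)
      refine ⟨i, Finset.mem_univ i, ?_⟩
      rw [← QuotientGroup.out_eq' b]
      refine QuotientGroup.eq.mpr ?_
      have := U.toSubgroup.inv_mem (QuotientGroup.eq.mp hi)
      simpa [mul_assoc] using this
    · rintro ⟨i, -, rfl⟩
      have h1 : (g * s i)⁻¹ * Quotient.out (e i) ∈ U.toSubgroup :=
        QuotientGroup.eq.mp (QuotientGroup.out_eq' (e i)).symm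
      have := doubleSet_left_mul (U.toSubgroup.inv_mem hout) (doubleSet_right_mul (hs.mem i) h1)
      rwa [show u⁻¹ * (s i * ((g * s i)⁻¹ * Quotient.out (e i))) = (g * u)⁻¹ * Quotient.out (e i)
        by group] at this
  rw [doubleOp, finsum_eq_sum_of_support_subset (s := Finset.univ.image e)]
  · rw [Finset.sum_image fun i _ j _ h => he h]
    exact Finset.sum_congr rfl fun i _ => if_pos ((hiff _).mpr (by simp))
  · intro b hb
    by_contra hmem
    exact hb (if_neg fun h => hmem ((hiff b).mp h))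

/-- The representatives `unip (r i) * dia a`, `dia a⁻¹`. -/
def heckeRep {ι : Type*} (a : (FinAdele F)ˣ) (r : ι → FinAdele F) : Option ι → GLFin F
  | none => dia a⁻¹
  | some i => unip (r i) * dia a

/-- `c_k` of the recursion `N c_{k+2} = lam c_{k+1} - c_k`. -/
def heckeCoeff (N lam : ℂ) : ℕ → ℂ
  | 0 => 1
  | 1 => lam / N
  | k + 2 => (lam * heckeCoeff N lam (k + 1) - heckeCoeff N lam k) / N

variable [NumberField.IsTotallyComplex F] {φ : Y U → ℂ}

/-- **The Hecke relation.** `g₀` is a translate commuting with the representatives. -/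
theorem whit_hecke (hφ : IsCuspEigen φ) {ι : Type*} [Fintype ι] {a : (FinAdele F)ˣ}
    {r : ι → FinAdele F} (hs : IsCosetList U (diagIdele F a) (heckeRep a r)) {lam : ℂ}
    (heig : ∀ y, doubleOp (diagIdele F a) φ y = lam * φ y) {g₀ : GLFin F}
    (hg₀ : ∀ o, Commute g₀ (heckeRep a r o)) (α : (FinAdele F)ˣ) :
    lam * whit φ (dia α • (g₀ : GLFin F ⧸ U.toSubgroup))
      = (∑ i, psiFin F ((α : FinAdele F) * r i)) *
          whit φ (dia (α * a) • (g₀ : GLFin F ⧸ U.toSubgroup))
        + whit φ (dia (α * a⁻¹) • (g₀ : GLFin F ⧸ U.toSubgroup)) := by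
  set c₀ : GLFin F ⧸ U.toSubgroup := (g₀ : GLFin F ⧸ U.toSubgroup) with hc₀
  have h1 := whit_eq_sum (φ' := fun y => lam * φ y) (c := dia α • c₀) (Finset.univ : Finset Unit)
    (fun _ => lam) (fun _ => φ) (fun _ _ => hφ) (fun _ => dia α • c₀) (fun P => by simp)
  have h2 := whit_eq_sum (φ' := fun y => lam * φ y) (c := dia α • c₀)
    (Finset.univ : Finset (Option ι)) (fun _ => 1) (fun _ => φ) (fun _ _ => hφ)
    (fun o => (dia α * heckeRep a r o) • c₀) (fun P => by
      rw [← heig, show dia α • c₀ = ((dia α * g₀ : GLFin F) : GLFin F ⧸ U.toSubgroup) from rfl,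
        doubleOp_eq_sum hs]
      refine Finset.sum_congr rfl fun o _ => ?_
      rw [one_mul, mul_assoc, (hg₀ o).eq, ← mul_assoc]
      rfl)
  rw [h1] at h2
  simp only [Finset.sum_const, Finset.card_univ, Fintype.card_unit, one_smul, one_mul,
    Fintype.sum_option] at h2
  rw [h2, add_comm, Finset.sum_mul]
  congr 1
  · refine Finset.sum_congr rfl fun i _ => ?_
    rw [heckeRep, ← mul_assoc, dia_mul_unip, mul_assoc, ← dia_mul, mul_smul,
      whit_unip_smul hφ]
  · rw [heckeRep, ← dia_mul]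

/-- **The recursion.** At `α` on the bottom of the support, `A (α a^k) = c_k A α`. -/
theorem whit_pow (hφ : IsCuspEigen φ) {ι : Type*} [Fintype ι] [Nonempty ι] {a : (FinAdele F)ˣ}
    {r : ι → FinAdele F} (hs : IsCosetList U (diagIdele F a) (heckeRep a r)) {lam : ℂ}
    (heig : ∀ y, doubleOp (diagIdele F a) φ y = lam * φ y) {g₀ : GLFin F}
    (hg₀ : ∀ o, Commute g₀ (heckeRep a r o)) (α : (FinAdele F)ˣ)
    (hpsi : ∀ (k : ℕ) i, psiFin F (((α * a ^ k : (FinAdele F)ˣ) : FinAdele F) * r i) = 1)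
    (hbot : whit φ (dia (α * a⁻¹) • (g₀ : GLFin F ⧸ U.toSubgroup)) = 0) :
    ∀ k : ℕ, whit φ (dia (α * a ^ k) • (g₀ : GLFin F ⧸ U.toSubgroup))
      = heckeCoeff (Fintype.card ι) lam k * whit φ (dia α • (g₀ : GLFin F ⧸ U.toSubgroup)) := by
  have hN : (Fintype.card ι : ℂ) ≠ 0 := Nat.cast_ne_zero.mpr Fintype.card_ne_zero
  have rel : ∀ k : ℕ, lam * whit φ (dia (α * a ^ k) • (g₀ : GLFin F ⧸ U.toSubgroup))
      = Fintype.card ι * whit φ (dia (α * a ^ (k + 1)) • (g₀ : GLFin F ⧸ U.toSubgroup))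
        + whit φ (dia (α * a ^ k * a⁻¹) • (g₀ : GLFin F ⧸ U.toSubgroup)) := fun k => by
    rw [whit_hecke hφ hs heig hg₀, Finset.sum_congr rfl fun i _ => hpsi k i, Finset.sum_const,
      Finset.card_univ, nsmul_eq_mul, mul_one, pow_succ, mul_assoc α]
  intro k
  induction k using Nat.twoStepInduction with
  | zero => simp [heckeCoeff]
  | one =>
    have h := rel 0
    rw [pow_zero, mul_one, hbot, add_zero, zero_add] at h
    rw [heckeCoeff, div_mul_eq_mul_div, eq_div_iff hN]
    linear_combination -h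
  | more k h0 h1 =>
    have h := rel (k + 1)
    rw [show α * a ^ (k + 1) * a⁻¹ = α * a ^ k by rw [pow_succ, mul_assoc, mul_inv_cancel_right],
      h1, h0] at h
    rw [heckeCoeff, div_mul_eq_mul_div, eq_div_iff hN]
    linear_combination -h

/-- **Multiplicativity** over finitely many good places. -/
theorem whit_prod_pow (hφ : IsCuspEigen φ) {J : Type*} [DecidableEq J] (S : Finset J)
    {ι : J → Type*} [∀ j, Fintype (ι j)] [∀ j, Nonempty (ι j)] (a : J → (FinAdele F)ˣ)
    (r : ∀ j, ι j → FinAdele F)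
    (hs : ∀ j ∈ S, IsCosetList U (diagIdele F (a j)) (heckeRep (a j) (r j))) (lam : J → ℂ)
    (heig : ∀ j ∈ S, ∀ y, doubleOp (diagIdele F (a j)) φ y = lam j * φ y) {g₀ : GLFin F}
    (hg₀ : ∀ j ∈ S, ∀ o, Commute g₀ (heckeRep (a j) (r j) o)) (α : (FinAdele F)ˣ)
    (hpsi : ∀ j ∈ S, ∀ (k : J → ℕ) i,
      psiFin F (((α * ∏ l ∈ S, a l ^ k l : (FinAdele F)ˣ) : FinAdele F) * r j i) = 1)
    (hbot : ∀ j ∈ S, ∀ k : J → ℕ, k j = 0 →
      whit φ (dia ((α * ∏ l ∈ S, a l ^ k l) * (a j)⁻¹) • (g₀ : GLFin F ⧸ U.toSubgroup)) = 0)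
    (k : J → ℕ) :
    whit φ (dia (α * ∏ l ∈ S, a l ^ k l) • (g₀ : GLFin F ⧸ U.toSubgroup))
      = (∏ j ∈ S, heckeCoeff (Fintype.card (ι j)) (lam j) (k j)) *
          whit φ (dia α • (g₀ : GLFin F ⧸ U.toSubgroup)) := by
  suffices h : ∀ T ⊆ S, ∀ k : J → ℕ, (∀ j ∈ S, j ∉ T → k j = 0) →
      whit φ (dia (α * ∏ l ∈ S, a l ^ k l) • (g₀ : GLFin F ⧸ U.toSubgroup))
        = (∏ j ∈ T, heckeCoeff (Fintype.card (ι j)) (lam j) (k j)) *
            whit φ (dia α • (g₀ : GLFin F ⧸ U.toSubgroup)) from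
    h S le_rfl k fun j hj hj' => absurd hj hj'
  intro T
  induction T using Finset.induction_on with
  | empty =>
    intro _ k hk
    rw [Finset.prod_eq_one (f := fun l => a l ^ k l) fun l hl => by
      rw [hk l hl (by simp), pow_zero]]
    simp
  | insert j T hj ih =>
    intro hT k hk
    have hjS : j ∈ S := hT (Finset.mem_insert_self j T)
    set k' := Function.update k j 0 with hk'
    have e1 : ∀ n : ℕ, ∏ l ∈ S, a l ^ Function.update k j n l
        = (∏ l ∈ S, a l ^ k' l) * a j ^ n := fun n => by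
      rw [← Finset.mul_prod_erase S _ hjS, ← Finset.mul_prod_erase S (fun l => a l ^ k' l) hjS,
        Function.update_self, hk', Function.update_self, pow_zero, one_mul]
      refine Eq.trans (mul_comm (a j ^ n) _) ?_
      congr 1
      refine Finset.prod_congr rfl fun l hl => ?_
      rw [Function.update_of_ne (Finset.ne_of_mem_erase hl),
        Function.update_of_ne (Finset.ne_of_mem_erase hl)]
    have hstep := whit_pow hφ (hs j hjS) (heig j hjS) (hg₀ j hjS) (α * ∏ l ∈ S, a l ^ k' l)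
      (fun n i => by
        have := hpsi j hjS (Function.update k j n) i
        rwa [e1, ← mul_assoc] at this)
      (hbot j hjS k' (by simp [hk'])) (k j)
    rw [show (∏ l ∈ S, a l ^ k l) = (∏ l ∈ S, a l ^ k' l) * a j ^ k j by
      rw [← e1, Function.update_eq_self], ← mul_assoc, hstep,
      ih (fun l hl => hT (Finset.mem_insert_of_mem hl)) k' (fun l hl hl' => by
        rcases eq_or_ne l j with rfl | hlj
        · simp [hk']
        · rw [hk', Function.update_of_ne hlj]
          exact hk l hl (by simp [hlj, hl'])),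
      Finset.prod_insert hj, mul_assoc]
    congr 2
    refine Finset.prod_congr rfl fun l hl => ?_
    rw [hk', Function.update_of_ne (fun h : l = j => hj (h ▸ hl))]

end Fermat.Agent.LT.Whittaker
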