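import Fermat.Agent.LT.Whittaker.Defs
import Mathlib.Analysis.SpecialFunctions.Arcosh
import Mathlib.MeasureTheory.Integral.ExpDecay
import Mathlib.MeasureTheory.Integral.IntegralEqImproper

/-!
# `K₀` and the uniqueness of the radial coefficient

The kernel `exp (-(A x / v + A v / x + x v / A) / 2)` is symmetric in `A` and `x`; this forces the
solutions of the coefficient equation to be multiples of `K₀`.
-/

set_option autoImplicit false

noncomputable section

open MeasureTheory Set

namespace Fermat.Agent.LT.Whittaker

/-- `r ≤ cosh r`. -/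
theorem self_le_cosh (r : ℝ) : r ≤ Real.cosh r := by
  have h := Real.sum_le_exp_of_nonneg (abs_nonneg r) 3
  simp [Finset.sum_range_succ] at h
  rw [← Real.cosh_abs, Real.cosh_eq]
  have h2 := Real.add_one_le_exp (-|r|)
  nlinarith [le_abs_self r, sq_abs r, sq_nonneg (|r| - 2)]

/-- The integral defining `besselK` converges. -/
theorem integrableOn_besselK {A : ℝ} (hA : 0 < A) :
    IntegrableOn (fun r => Real.exp (-(A * Real.cosh r))) (Ioi 0) := by
  refine (exp_neg_integrableOn_Ioi 0 hA).mono' (by fun_prop : Continuous fun r : ℝ =>
    Real.exp (-(A * Real.cosh r))).aestronglyMeasurable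
    (Filter.Eventually.of_forall fun r => ?_)
  rw [Real.norm_eq_abs, Real.abs_exp, Real.exp_le_exp]
  nlinarith [self_le_cosh r]

/-- `besselK` is positive. -/
theorem besselK_pos {A : ℝ} (hA : 0 < A) : 0 < besselK A := by
  rw [besselK, setIntegral_pos_iff_support_of_nonneg_ae
    (Filter.Eventually.of_forall fun r => (Real.exp_pos _).le) (integrableOn_besselK hA)]
  have : (Function.support fun r => Real.exp (-(A * Real.cosh r))) = univ :=
    Function.support_eq_univ (fun r => (Real.exp_pos _).ne')
  simp [this]

/-- Exponential decay of `besselK`. -/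
theorem besselK_le {A : ℝ} (hA : 0 < A) : besselK A ≤ Real.exp (-(A / 2)) * besselK (A / 2) := by
  rw [besselK, besselK, ← integral_const_mul]
  refine setIntegral_mono_on (integrableOn_besselK hA)
    ((integrableOn_besselK (half_pos hA)).const_mul _) measurableSet_Ioi fun r _ => ?_
  rw [← Real.exp_add, Real.exp_le_exp]
  nlinarith [Real.one_le_cosh r]

/-- The symmetric kernel. -/
def symKer (A x v : ℝ) : ℝ := Real.exp (-(A * x / v + A * v / x + x * v / A) / 2)

theorem symKer_comm (A x v : ℝ) : symKer A x v = symKer x A v := by
  simp only [symKer]; ring_nf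

/-- A solution of the coefficient equation is a multiple of `K₀`. -/
theorem eq_smul_besselK {h : ℝ → ℂ}
    (heq : ∀ A x : ℝ, 0 < A → 0 < x →
      ∫ v in Ioi (0 : ℝ), (symKer A x v / v : ℝ) * h v = (2 * besselK A : ℝ) * h x)
    {x : ℝ} (hx : 0 < x) : h x = h 1 / (besselK 1 : ℂ) * (besselK x : ℂ) := by
  have h1 := heq x 1 hx one_pos
  have h2 := heq 1 x one_pos hx
  simp only [symKer_comm x 1] at h1
  rw [h2] at h1
  have hk : (besselK 1 : ℂ) ≠ 0 := Complex.ofReal_ne_zero.mpr (besselK_pos one_pos).ne'
  push_cast at h1
  field_simp
  linear_combination h1 / 2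

/-- A solution of the coefficient equation in every variable is a multiple of the product of the
`K₀ (x i)`. -/
theorem eq_prod_besselK {ι : Type*} [Fintype ι] [DecidableEq ι] {h : (ι → ℝ) → ℂ}
    (heq : ∀ (w : ι) (x : ι → ℝ), (∀ i, 0 < x i) → ∀ A : ℝ, 0 < A →
      ∫ v in Ioi (0 : ℝ), (symKer A (x w) v / v : ℝ) * h (Function.update x w v)
        = (2 * besselK A : ℝ) * h x)
    {x : ι → ℝ} (hx : ∀ i, 0 < x i) :
    h x = h (fun _ => 1) * ∏ i, ((besselK (x i) : ℂ) / (besselK 1 : ℂ)) := by
  classical
  suffices key : ∀ s : Finset ι, h (fun i => if i ∈ s then x i else 1)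
      = h (fun _ => 1) * ∏ i ∈ s, ((besselK (x i) : ℂ) / (besselK 1 : ℂ)) by
    simpa using key Finset.univ
  intro s
  induction s using Finset.induction_on with
  | empty => simp
  | insert w s hw ih =>
    set y : ι → ℝ := fun i => if i ∈ s then x i else 1 with hy
    have hypos : ∀ i, 0 < y i := fun i => by
      simp only [hy]; split_ifs
      exacts [hx i, one_pos]
    have key := eq_smul_besselK (h := fun v => h (Function.update y w v))
      (fun A v hA hv => by
        have h3 := heq w (Function.update y w v) (fun i => by
          rcases eq_or_ne i w with rfl | hi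
          · simpa using hv
          · simpa [hi] using hypos i) A hA
        simpa using h3) (hx w)
    have e1 : Function.update y w 1 = y := by
      conv_rhs => rw [← Function.update_eq_self w y]
      simp [hy, hw]
    have e2 : Function.update y w (x w) = fun i => if i ∈ insert w s then x i else 1 := by
      funext i
      rcases eq_or_ne i w with rfl | hi
      · simp
      · simp [hy, hi]
    rw [e1, e2, ih] at key
    rw [key, Finset.prod_insert hw]
    ring

end Fermat.Agent.LT.Whittaker
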