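import Fermat.Agent.LT.Whittaker.Expansion

/-!
# The finite character and the transformation law of the Whittaker function

`psiFin` is an additive character, trivial on `Ô`, equal to `b ↦ e (-Tr b)` on `F`; the Whittaker
function satisfies `whit (unip u • c) = psiFin u * whit c`.
-/

set_option autoImplicit false

noncomputable section

open NumberField (InfinitePlace)

namespace Fermat.Agent.LT.Whittaker

variable {F : Type*} [Field F] [NumberField F]

/-- `b ↦ e (-Tr b)`. -/
def psiGlobal (b : F) : ℂ :=
  Complex.exp ((-(2 * Real.pi) * (Algebra.trace ℚ F b : ℝ) : ℝ) * Complex.I)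

theorem psiGlobal_add (a b : F) : psiGlobal (a + b) = psiGlobal a * psiGlobal b := by
  rw [psiGlobal, psiGlobal, psiGlobal, ← Complex.exp_add, map_add]
  congr 1
  push_cast
  ring

theorem trace_integer (o : NumberField.RingOfIntegers F) :
    ∃ n : ℤ, Algebra.trace ℚ F (o : F) = n := by
  obtain ⟨n, hn⟩ := IsIntegrallyClosed.isIntegral_iff.mp
    (Algebra.isIntegral_trace (L := ℚ) (NumberField.RingOfIntegers.isIntegral_coe o))
  exact ⟨n, by rw [← hn]; simp⟩

theorem psiGlobal_integer (o : NumberField.RingOfIntegers F) : psiGlobal (o : F) = 1 := by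
  obtain ⟨n, hn⟩ := trace_integer o
  rw [psiGlobal, hn, Complex.exp_eq_one_iff]
  exact ⟨-n, by push_cast; ring⟩

/-- The value of `psiFin` is read off at any global element congruent modulo the integral adeles. -/
theorem psiFin_eq {u : FinAdele F} {b : F} (h : u - finIncl F b ∈ integralAdele F) :
    psiFin F u = psiGlobal b := by
  have hex : ∃ b : F, u - finIncl F b ∈ integralAdele F := ⟨b, h⟩
  rw [psiFin, dif_pos hex]
  show psiGlobal hex.choose = psiGlobal b
  obtain ⟨o, ho⟩ := Reduction.exists_integer_of_finIncl_mem (a := hex.choose - b) (by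
    have := sub_mem h hex.choose_spec
    rwa [show u - finIncl F b - (u - finIncl F hex.choose)
      = finIncl F (hex.choose - b) by rw [map_sub]; ring] at this)
  rw [show hex.choose = b + (o : F) by rw [ho]; ring, psiGlobal_add, psiGlobal_integer, mul_one]

/-- Every finite adele is global up to an integral one. -/
theorem exists_finIncl_sub (u : FinAdele F) :
    ∃ b : F, u - finIncl F b ∈ integralAdele F := by
  obtain ⟨b, o, ho, rfl⟩ := Reduction.exists_finIncl_add 1 one_pos u
  exact ⟨b, by simpa using ho⟩

/-- `psiFin` restricts to `psiGlobal` on `F`. -/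
theorem psiFin_finIncl (b : F) : psiFin F (finIncl F b) = psiGlobal b :=
  psiFin_eq (by simp)

/-- `psiFin` is trivial on the integral adeles. -/
theorem psiFin_of_mem {u : FinAdele F} (h : u ∈ integralAdele F) : psiFin F u = 1 := by
  rw [psiFin_eq (b := 0) (by simpa using h)]
  simp [psiGlobal]

/-- `psiFin` is additive. -/
theorem psiFin_add (u v : FinAdele F) : psiFin F (u + v) = psiFin F u * psiFin F v := by
  obtain ⟨a, ha⟩ := exists_finIncl_sub u
  obtain ⟨b, hb⟩ := exists_finIncl_sub v
  rw [psiFin_eq ha, psiFin_eq hb, ← psiGlobal_add]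
  refine psiFin_eq ?_
  rw [map_add, show u + v - (finIncl F a + finIncl F b)
    = (u - finIncl F a) + (v - finIncl F b) by ring]
  exact add_mem ha hb

/-- The finite additive character is unitary. -/
theorem norm_psiFin (u : FinAdele F) : ‖psiFin F u‖ = 1 := by
  obtain ⟨a, ha⟩ := exists_finIncl_sub u
  rw [psiFin_eq ha]
  exact Complex.norm_exp_ofReal_mul_I _

/-- The finite additive character does not vanish. -/
theorem psiFin_ne_zero (u : FinAdele F) : psiFin F u ≠ 0 :=
  norm_ne_zero_iff.mp (by rw [norm_psiFin]; exact one_ne_zero)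

variable (F) in
/-- `psiFin` as an additive character. -/
def psiChar : AddChar (FinAdele F) ℂ where
  toFun := psiFin F
  map_zero_eq_one' := psiFin_of_mem (zero_mem _)
  map_add_eq_mul' := psiFin_add

/-- `psiChar` has the values of `psiFin`. -/
@[simp] theorem psiChar_apply (u : FinAdele F) : psiChar F u = psiFin F u := rfl

variable {U : Level F}

/-- Scalars fix every coset. -/
theorem scalarFin_smul (a : (FinAdele F)ˣ) (c : GLFin F ⧸ U.toSubgroup) :
    scalarFin F a • c = c := by
  induction c using QuotientGroup.induction_on with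
  | H x =>
  show QuotientGroup.mk (scalarFin F a * x) = QuotientGroup.mk x
  rw [scalarFin_comm]
  exact QuotientGroup.eq.mpr (by simpa using U.toSubgroup.inv_mem (U.scalar_mem a))

variable [NumberField.IsTotallyComplex F] {φ : Y U → ℂ}

/-- The coefficients at a translated coset. -/
theorem coef_glIncl_unip (hφ : IsCuspEigen φ) (c : GLFin F ⧸ U.toSubgroup) (β ξ : F) :
    coef φ (glIncl F (unip β) • c) ξ = psiGlobal (ξ * β) * coef φ c ξ := by
  have key : IsExpansion φ (glIncl F (unip β) • c)
      (fun η => psiGlobal (η * β) * coef φ c η) := by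
    refine ⟨by simp [(isExpansion_coef hφ c).1], fun z t ht => ?_⟩
    have h := (isExpansion_coef hφ c).2 (z + fun w => w.embedding (-β)) t ht
    rw [← phi_unip hφ.automorphic β _ ht c, show (z + fun w : InfinitePlace F => w.embedding (-β)) +
      (fun w => w.embedding β) = z from funext fun w => by simp] at h
    refine h.congr_fun fun η => ?_
    have e : expChar η (fun w => w.embedding (-β)) = psiGlobal (η * β) := by
      rw [expChar, pairing_embedding, psiGlobal, mul_neg, map_neg]
      congr 1
      push_cast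
      ring
    rw [expChar_add, e]
    ring
  exact congrFun (coef_eq_of_isExpansion key) ξ

/-- **The transformation law.** -/
theorem whit_unip_smul (hφ : IsCuspEigen φ) (u : FinAdele F) (c : GLFin F ⧸ U.toSubgroup) :
    whit φ (unip u • c) = psiFin F u * whit φ c := by
  obtain ⟨M, hM, hfix⟩ := exists_unip_smul c
  obtain ⟨β, o, ho, rfl⟩ := Reduction.exists_finIncl_add M hM u
  rw [unip, AddChar.map_add_eq_mul, mul_smul, hfix o ho, psiFin_eq (b := β) (by
    simpa using mul_mem (natCast_mem _ M) ho), ← unip, ← glIncl_unip, whit, whit,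
    coef_glIncl_unip hφ c β 1, one_mul]

/-- Support: a fixing unipotent must have trivial character where `whit` is nonzero. -/
theorem psiFin_eq_one_of_fix (hφ : IsCuspEigen φ) {u : FinAdele F} {c : GLFin F ⧸ U.toSubgroup}
    (hu : unip u • c = c) (hc : whit φ c ≠ 0) : psiFin F u = 1 := by
  have h := whit_unip_smul hφ u c
  rw [hu] at h
  exact (mul_eq_right₀ hc).mp h.symm

/-- Support on the diagonal: `whit` at `dia ξ • c` vanishes unless `ψ (ξ u) = 1` for all fixing
`u`. -/
theorem psiFin_mul_eq_one_of_fix (hφ : IsCuspEigen φ) (a : (FinAdele F)ˣ) {u : FinAdele F}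
    {c : GLFin F ⧸ U.toSubgroup} (hu : unip u • c = c) (hc : whit φ (dia a • c) ≠ 0) :
    psiFin F ((a : FinAdele F) * u) = 1 := by
  refine psiFin_eq_one_of_fix hφ ?_ hc
  rw [← mul_smul, ← dia_mul_unip, mul_smul, hu]

omit [NumberField.IsTotallyComplex F] in
open Classical in
/-- Coefficients are linear in the function: a finite combination of translates. -/
theorem isExpansion_sum {ι : Type*} (s : Finset ι) (k : ι → ℂ) {V : ι → Level F}
    (f : ∀ i, Y (V i) → ℂ) (b : ∀ i, GLFin F ⧸ (V i).toSubgroup) {φ' : Y U → ℂ}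
    {c : GLFin F ⧸ U.toSubgroup} (a : ι → F → ℂ) (ha : ∀ i ∈ s, IsExpansion (f i) (b i) (a i))
    (h : ∀ P, φ' (P, c) = ∑ i ∈ s, k i * f i (P, b i)) :
    IsExpansion φ' c (fun ξ => ∑ i ∈ s, k i * a i ξ) := by
  refine ⟨Finset.sum_eq_zero fun i hi => by simp [(ha i hi).1], fun z t ht => ?_⟩
  rw [h]
  refine (hasSum_sum fun i hi => ((ha i hi).2 z t ht).mul_left (k i)).congr_fun fun ξ => ?_
  rw [Finset.sum_mul, Finset.sum_mul]
  exact Finset.sum_congr rfl fun i _ => by ring

/-- If `φ'` is, at one coset, a combination of translates of cusp forms, so is its Whittaker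
function. -/
theorem whit_eq_sum {ι : Type*} (s : Finset ι) (k : ι → ℂ) {V : ι → Level F}
    (f : ∀ i, Y (V i) → ℂ) (hf : ∀ i ∈ s, IsCuspEigen (f i))
    (b : ∀ i, GLFin F ⧸ (V i).toSubgroup) {φ' : Y U → ℂ} {c : GLFin F ⧸ U.toSubgroup}
    (h : ∀ P, φ' (P, c) = ∑ i ∈ s, k i * f i (P, b i)) :
    whit φ' c = ∑ i ∈ s, k i * whit (f i) (b i) := by
  rw [whit, coef_eq_of_isExpansion (isExpansion_sum s k f b (fun i => coef (f i) (b i))
    (fun i hi => isExpansion_coef (hf i hi) (b i)) h)]
  rfl

end Fermat.Agent.LT.Whittaker
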