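import Fermat.Agent.LT.Whittaker.Hecke
import Fermat.Agent.LT.Places.LocalGL
import Mathlib.NumberTheory.NumberField.Discriminant.Different

/-!
# The character at a good place, support of the Whittaker function, local recursion

At a place prime to the different the conductor of `psiFin` is `O_v`; hence `whit` is supported on
`|α|_v ≤ 1` where the level is good, and the recursion starts at the units.
-/

set_option autoImplicit false

noncomputable section

open IsDedekindDomain WithZero
open scoped NumberField nonZeroDivisors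

namespace Fermat.Agent.LT.Whittaker

open Places

variable {F : Type*} [Field F] [NumberField F]

/-- The global character is trivial exactly at elements of integral trace. -/
theorem psiGlobal_eq_one_iff (b : F) :
    psiGlobal b = 1 ↔ ∃ n : ℤ, Algebra.trace ℚ F b = n := by
  rw [psiGlobal, Complex.exp_eq_one_iff]
  constructor
  · rintro ⟨m, hm⟩
    refine ⟨-m, ?_⟩
    have h := congrArg Complex.im hm
    simp only [Complex.mul_im, Complex.ofReal_re, Complex.ofReal_im, Complex.I_re, Complex.I_im,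
      Complex.mul_re, Complex.intCast_re, Complex.intCast_im, Complex.re_ofNat, Complex.im_ofNat,
      mul_zero, mul_one, zero_mul, sub_zero, add_zero] at h
    have hpi := Real.pi_pos
    have h' : ((Algebra.trace ℚ F b : ℚ) : ℝ) = ((-m : ℤ) : ℝ) := by push_cast; nlinarith
    exact_mod_cast h'
  · rintro ⟨n, hn⟩
    exact ⟨-n, by rw [hn]; push_cast; ring⟩

/-- An element of `v⁻¹` with non-integral trace, for `v` prime to the different. -/
theorem exists_trace_not_integer (v : FinPlace F)
    (hv : ¬ differentIdeal ℤ (𝓞 F) ≤ v.asIdeal) :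
    ∃ b : F, (∀ x ∈ v.asIdeal, ∃ o : 𝓞 F, (o : F) = b * (x : F)) ∧
      ¬ ∃ n : ℤ, Algebra.trace ℚ F b = n := by
  by_contra hc
  push Not at hc
  refine hv ((differentialIdeal_le_iff (K := ℚ) (L := F) v.ne_bot).2 ?_)
  rintro y ⟨b, hb, rfl⟩
  obtain ⟨n, hn⟩ := hc b fun x hx => by
    have hne : (v.asIdeal : FractionalIdeal (𝓞 F)⁰ F) ≠ 0 := by
      simpa using v.ne_bot
    have h := (FractionalIdeal.mem_inv_iff hne).1 hb (x : F)
      (FractionalIdeal.mem_coeIdeal_of_mem _ hx)
    rw [FractionalIdeal.mem_one_iff] at h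
    exact h
  exact Submodule.mem_one.2 ⟨n, by simpa using hn.symm⟩

/-- The character is nontrivial on `π⁻¹ O_v`. -/
theorem exists_psiFin_single_ne_one (v : FinPlace F)
    (hv : ¬ differentIdeal ℤ (𝓞 F) ≤ v.asIdeal) :
    ∃ x : v.adicCompletion F, Valued.v x ≤ exp (1 : ℤ) ∧ psiFin F (single v x) ≠ 1 := by
  obtain ⟨b, hb, htr⟩ := exists_trace_not_integer v hv
  have hint : ∀ (w : FinPlace F) (o : 𝓞 F), w.valuation F (o : F) ≤ 1 := fun w o =>
    w.valuation_le_one o
  have hmem : ∀ w : FinPlace F, w ≠ v → w.valuation F b ≤ 1 := by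
    intro w hw
    obtain ⟨x, hx, hxw⟩ := SetLike.not_le_iff_exists.1 fun h =>
      hw (HeightOneSpectrum.ext (v.isMaximal.eq_of_le w.isPrime.ne_top h).symm)
    obtain ⟨o, ho⟩ := hb x hx
    have h1 : w.valuation F (x : F) = 1 := le_antisymm (hint w x) (not_lt.1 fun h =>
      hxw ((w.valuation_lt_one_iff_mem (K := F) x).1 h))
    have h2 := hint w o
    rwa [ho, map_mul, h1, mul_one] at h2
  refine ⟨toPlace v (finIncl F b), ?_, ?_⟩
  · show placeVal v (finIncl F b) ≤ _
    rw [placeVal_finIncl]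
    have hu : uniformizer v ∈ v.asIdeal := (v.valuation_lt_one_iff_mem (K := F) _).1 (by
      rw [valuation_uniformizer, ← exp_zero, exp_lt_exp]
      omega)
    obtain ⟨o, ho⟩ := hb _ hu
    have h2 := hint v o
    rw [ho, map_mul, valuation_uniformizer] at h2
    calc v.valuation F b = v.valuation F b * exp (-1 : ℤ) * exp (1 : ℤ) := by
          rw [mul_assoc, ← exp_add]; simp
      _ ≤ 1 * exp (1 : ℤ) := mul_le_mul_left h2 _
      _ = exp (1 : ℤ) := one_mul _
  · rw [psiFin_eq (b := b)]
    · exact fun h => htr ((psiGlobal_eq_one_iff b).1 h)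
    · refine mem_integralAdele_iff.2 fun w => ?_
      rcases eq_or_ne w v with rfl | hw
      · simp [placeVal]
      · rw [placeVal, map_sub, toPlace_single_ne hw, zero_sub, Valuation.map_neg]
        show placeVal w (finIncl F b) ≤ _
        rw [placeVal_finIncl]
        exact hmem w hw

/-- For `|α|_v > 1` the character `x ↦ ψ (α x)` is nontrivial on `O_v`. -/
theorem exists_psiFin_mul_single_ne_one (v : FinPlace F)
    (hv : ¬ differentIdeal ℤ (𝓞 F) ≤ v.asIdeal) (α : (FinAdele F)ˣ)
    (hα : 1 < placeVal v (α : FinAdele F)) :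
    ∃ x : v.adicCompletion F, Valued.v x ≤ 1 ∧
      psiFin F ((α : FinAdele F) * single v x) ≠ 1 := by
  obtain ⟨x₀, hx₀, hne⟩ := exists_psiFin_single_ne_one v hv
  set a := toPlace v (α : FinAdele F) with ha
  have ha0 : a ≠ 0 := toPlace_units_ne_zero v α
  have hexp : exp (1 : ℤ) ≤ Valued.v a := by
    rw [placeVal_eq_exp_ord, ← exp_zero, exp_lt_exp] at hα
    show exp (1 : ℤ) ≤ placeVal v (α : FinAdele F)
    rw [placeVal_eq_exp_ord, exp_le_exp]
    omega
  refine ⟨a⁻¹ * x₀, ?_, ?_⟩
  · rw [map_mul, map_inv₀, inv_mul_le_one₀ (zero_lt_iff.2 ((Valuation.ne_zero_iff _).2 ha0))]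
    exact hx₀.trans hexp
  · have e : (α : FinAdele F) * single v (a⁻¹ * x₀) = single v x₀ := ext_toPlace fun w => by
      rcases eq_or_ne w v with rfl | hw
      · rw [map_mul, toPlace_single_same, toPlace_single_same, ← ha, mul_inv_cancel_left₀ ha0]
      · rw [map_mul, toPlace_single_ne hw, toPlace_single_ne hw, mul_zero]
    rwa [e]

/-- At a good place `O_v`-unipotents fix the cosets of integral components. -/
theorem unip_single_smul {U : Level F} {v : FinPlace F} (hU : IsGoodAt U v) {g₀ : GLFin F}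
    (hg₀ : glPlace v g₀ ∈ intGroup v) {x : v.adicCompletion F} (hx : Valued.v x ≤ 1) :
    unip (single v x) • (g₀ : GLFin F ⧸ U.toSubgroup) = (g₀ : GLFin F ⧸ U.toSubgroup) := by
  have hn : unip x ∈ intGroup v := by
    refine mem_intGroup_iff.2 ⟨fun i j => ?_, ?_⟩
    · fin_cases i <;> fin_cases j <;> simp [unip, hx]
    · simp [unip, Matrix.det_fin_two]
  have e : g₀⁻¹ * (unip (single v x) * g₀)
      = localGL v ((glPlace v g₀)⁻¹ * (unip x * glPlace v g₀)) := by
    refine gl_ext fun w => ?_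
    rw [map_mul, map_inv, map_mul]
    have hw : glPlace w (unip (single v x)) = unip (toPlace w (single v x)) := map_unip _ _
    rcases eq_or_ne w v with rfl | hwv
    · rw [glPlace_localGL_same, hw, toPlace_single_same]
    · rw [glPlace_localGL_ne hwv, hw, toPlace_single_ne hwv, unip, AddChar.map_zero_eq_one,
        one_mul, inv_mul_cancel]
  show QuotientGroup.mk (unip (single v x) * g₀) = QuotientGroup.mk g₀
  rw [eq_comm, QuotientGroup.eq, e]
  exact hU _ ((intGroup v).mul_mem ((intGroup v).inv_mem hg₀) ((intGroup v).mul_mem hn hg₀))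

variable [NumberField.IsTotallyComplex F] {U : Level F} {φ : Y U → ℂ}

/-- **Support at a good place.** -/
theorem whit_eq_zero_of_one_lt (hφ : IsCuspEigen φ) (v : FinPlace F)
    (hv : ¬ differentIdeal ℤ (𝓞 F) ≤ v.asIdeal) {c : GLFin F ⧸ U.toSubgroup}
    (hfix : ∀ x : v.adicCompletion F, Valued.v x ≤ 1 → unip (single v x) • c = c)
    (α : (FinAdele F)ˣ) (hα : 1 < placeVal v (α : FinAdele F)) :
    whit φ (dia α • c) = 0 := by
  obtain ⟨x, hx, hne⟩ := exists_psiFin_mul_single_ne_one v hv α hα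
  by_contra hw
  exact hne (psiFin_mul_eq_one_of_fix hφ α (hfix x hx) hw)

omit [NumberField.IsTotallyComplex F] in
/-- The character is trivial on locally integral adeles supported at one place. -/
theorem psiFin_mul_single_of_le_one (v : FinPlace F) {α : FinAdele F} (hα : placeVal v α ≤ 1)
    {x : v.adicCompletion F} (hx : Valued.v x ≤ 1) : psiFin F (α * single v x) = 1 := by
  refine psiFin_of_mem (mem_integralAdele_iff.2 fun w => ?_)
  rcases eq_or_ne w v with rfl | hw
  · rw [placeVal_mul]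
    exact mul_le_one' hα (by simpa [placeVal] using hx)
  · simp [placeVal, toPlace_single_ne hw]

open Classical in
/-- **Multiplicativity at good places**: for `α` a unit at every place of `S`,
`A (α ∏ a_v^{k_v}) = ∏ c_{k_v} · A α`. -/
theorem whit_prod_pow_local (hφ : IsCuspEigen φ) (S : Finset (FinPlace F))
    (hdiff : ∀ v ∈ S, ¬ differentIdeal ℤ (𝓞 F) ≤ v.asIdeal) (hU : ∀ v ∈ S, IsGoodAt U v)
    {ι : FinPlace F → Type*} [∀ v, Fintype (ι v)] [∀ v, Nonempty (ι v)]
    (a : FinPlace F → (FinAdele F)ˣ)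
    (ha : ∀ v ∈ S, placeVal v (a v : FinAdele F) = exp (-1 : ℤ))
    (ha' : ∀ v ∈ S, ∀ w ∈ S, w ≠ v → placeVal w (a v : FinAdele F) = 1)
    (x : ∀ v, ι v → v.adicCompletion F) (hx : ∀ v ∈ S, ∀ i, Valued.v (x v i) ≤ 1)
    (hs : ∀ v ∈ S, IsCosetList U (diagIdele F (a v)) (heckeRep (a v) fun i => single v (x v i)))
    (lam : FinPlace F → ℂ)
    (heig : ∀ v ∈ S, ∀ y, doubleOp (diagIdele F (a v)) φ y = lam v * φ y) {g₀ : GLFin F}
    (hint : ∀ v ∈ S, glPlace v g₀ ∈ intGroup v)
    (hg₀ : ∀ v ∈ S, ∀ o, Commute g₀ (heckeRep (a v) (fun i => single v (x v i)) o))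
    (α : (FinAdele F)ˣ) (hα : ∀ v ∈ S, placeVal v (α : FinAdele F) = 1) (k : FinPlace F → ℕ) :
    whit φ (dia (α * ∏ v ∈ S, a v ^ k v) • (g₀ : GLFin F ⧸ U.toSubgroup))
      = (∏ v ∈ S, heckeCoeff (Fintype.card (ι v)) (lam v) (k v)) *
          whit φ (dia α • (g₀ : GLFin F ⧸ U.toSubgroup)) := by
  have hord : ∀ v ∈ S, ∀ k : FinPlace F → ℕ,
      placeVal v ((α * ∏ l ∈ S, a l ^ k l : (FinAdele F)ˣ) : FinAdele F) = exp (-1 : ℤ) ^ k v := by
    intro v hv k
    rw [Units.val_mul, placeVal_mul, hα v hv, one_mul, placeVal, Units.coe_prod, map_prod,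
      map_prod, Finset.prod_eq_single v (fun l hl hne => ?_) (fun h => absurd hv h)]
    · rw [Units.val_pow_eq_pow_val, map_pow, map_pow]
      exact congrArg (· ^ k v) (ha v hv)
    · rw [Units.val_pow_eq_pow_val, map_pow, map_pow]
      exact (congrArg (· ^ k l) (ha' l hl v hv hne.symm)).trans (one_pow _)
  refine whit_prod_pow hφ S a (fun v i => single v (x v i)) hs lam heig hg₀ α
    (fun v hv k i => psiFin_mul_single_of_le_one v ?_ (hx v hv i)) (fun v hv k hk => ?_) k
  · rw [hord v hv k]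
    exact pow_le_one' (by rw [← exp_zero, exp_le_exp]; omega) _
  · refine whit_eq_zero_of_one_lt hφ v (hdiff v hv)
      (fun x hx => unip_single_smul (hU v hv) (hint v hv) hx) _ ?_
    rw [Units.val_mul, placeVal_mul, hord v hv k, hk, pow_zero, one_mul, placeVal_units_inv,
      ha v hv, ← exp_neg, ← exp_zero, exp_lt_exp]
    omega

end Fermat.Agent.LT.Whittaker
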