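import Fermat.Agent.LT.Whittaker.Law

/-!
# Right translates, projection to residue classes, shells, and vanishing constant terms

* right combinations of translates act on `whit` by the same combination;
* `∑ ψ (-a₀ x) R (n (x)) φ` keeps the part of `whit` with `ψ ((α - a₀) J) = 1`;
* invariance under `n (J')` and vanishing averages over `J / J'` confine `whit` to one shell;
* vanishing averages over finite unipotents give the vanishing of the constant term.
-/

set_option autoImplicit false

noncomputable section

open MeasureTheory Set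
open NumberField (InfinitePlace)

namespace Fermat.Agent.LT.Whittaker

variable {F : Type*} [Field F] [NumberField F] [NumberField.IsTotallyComplex F]
  {U U' : Level F} {φ : Y U → ℂ} {φ' : Y U' → ℂ}

/-- A function vanishing at a coset has no coefficient there. -/
theorem whit_eq_zero_of_sum {ι : Type*} (s : Finset ι) (k : ι → ℂ) (hφ : IsCuspEigen φ)
    (b : ι → GLFin F ⧸ U.toSubgroup) (h : ∀ P, ∑ i ∈ s, k i * φ (P, b i) = 0) :
    ∑ i ∈ s, k i * whit φ (b i) = 0 := by
  rcases s.eq_empty_or_nonempty with rfl | ⟨i₀, -⟩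
  · simp
  have h1 := whit_eq_sum (φ' := fun _ : Y U => (0 : ℂ)) (c := b i₀) s k (fun _ => φ)
    (fun _ _ => hφ) b (fun P => (h P).symm)
  have h0 := whit_eq_sum (φ' := fun _ : Y U => (0 : ℂ)) (c := b i₀) (∅ : Finset ι) k (fun _ => φ)
    (fun _ hi => absurd hi (Finset.notMem_empty _)) b (fun P => by simp)
  rw [h0, Finset.sum_empty] at h1
  exact h1.symm

/-- `whit` at a translate by `dia α * unip u`. -/
theorem whit_dia_unip_smul (hφ : IsCuspEigen φ) (α : (FinAdele F)ˣ) (u : FinAdele F)
    (c : GLFin F ⧸ U.toSubgroup) :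
    whit φ ((dia α * unip u) • c) = psiFin F ((α : FinAdele F) * u) * whit φ (dia α • c) := by
  rw [dia_mul_unip, mul_smul, whit_unip_smul hφ]

/-- **Producer of `zeroConst`.** A family of finite unipotents with vanishing average at `c`
kills the constant term at `c`. -/
theorem integral_box_eq_zero_of_average (hauto : IsAutomorphic φ)
    (hcont : ∀ c, Continuous fun P => φ (P, c)) {C : ℝ} (hC : ∀ y, ‖φ y‖ ≤ C)
    {c : GLFin F ⧸ U.toSubgroup} {t : InfinitePlace F → ℝ} (ht : ∀ w, 0 < t w)
    {b : Module.Basis (Fin (Module.finrank ℚ F)) ℚ F}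
    (hb : ∀ i, glIncl F (unip (b i)) • c = c) {ι : Type*} (s : Finset ι) (hs : s.Nonempty)
    (u : ι → FinAdele F) (h : ∀ P, ∑ i ∈ s, φ (P, unip (u i) • c) = 0) :
    ∫ x in {x : Fin (Module.finrank ℚ F) → ℝ | ∀ i, x i ∈ Set.Ioc (0 : ℝ) 1},
      φ (ptAt (fun w => ∑ i, (x i : ℂ) * w.embedding (b i)) t, c) = 0 := by
  obtain ⟨M, hM, hfix⟩ := exists_unip_smul c
  have hu : ∀ i, ∃ β : F, unip (u i) • c = glIncl F (unip β) • c := fun i => by
    obtain ⟨β, o, ho, he⟩ := Reduction.exists_finIncl_add M hM (u i)
    exact ⟨β, by rw [he, unip, AddChar.map_add_eq_mul, mul_smul, hfix o ho, glIncl_unip]⟩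
  choose β hβ using hu
  have hper := torusFn_periodic b hauto hb ht
  have hcont' : Continuous (torusFn b φ c t) :=
    (hcont c).comp ((continuous_ptAt ht).comp
      (LinearMap.continuous_of_finiteDimensional (boxEmb b)))
  have hsh : ∀ i x, φ (ptAt (boxEmb b x) t, unip (u i) • c)
      = torusFn b φ c t (x + boxInv b (fun w => w.embedding (-β i))) := by
    intro i x
    rw [hβ, torusFn, map_add, boxEmb_boxInv]
    refine Eq.trans ?_ (phi_unip hauto (β i) _ ht c)
    refine congrArg φ (Prod.ext (congrArg (ptAt · t) (funext fun w => ?_)) rfl)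
    simp
  show ∫ x in box (Fin (Module.finrank ℚ F)), torusFn b φ c t x = 0
  set I := ∫ x in box (Fin (Module.finrank ℚ F)), torusFn b φ c t x with hI
  have hfin := isFiniteMeasure_box (ι := Fin (Module.finrank ℚ F))
  have hint : ∀ i ∈ s, Integrable (fun x => φ (ptAt (boxEmb b x) t, unip (u i) • c))
      (volume.restrict (box (Fin (Module.finrank ℚ F)))) := fun i _ => by
    simp only [hsh]
    exact Integrable.of_bound
        (hcont'.comp (continuous_id.add continuous_const)).aestronglyMeasurable
      C (Filter.Eventually.of_forall fun x => hC _)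
  have h1 : ∑ i ∈ s, ∫ x in box (Fin (Module.finrank ℚ F)),
      φ (ptAt (boxEmb b x) t, unip (u i) • c) = 0 := by
    rw [← integral_finsetSum s hint]
    exact (integral_congr_ae (Filter.Eventually.of_forall fun x => h (ptAt (boxEmb b x) t))).trans
      (integral_zero _ _)
  rw [Finset.sum_congr rfl fun i _ => (integral_congr_ae
    (Filter.Eventually.of_forall (hsh i))).trans (integral_box_add hper _), Finset.sum_const,
    ← hI, nsmul_eq_mul, mul_eq_zero] at h1
  exact h1.resolve_left (Nat.cast_ne_zero.mpr hs.card_pos.ne')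

end Fermat.Agent.LT.Whittaker
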