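import Fermat.Agent.LT.Whittaker.Local
import Fermat.Agent.LT.Places.CosetList
import Mathlib.NumberTheory.NumberField.Cyclotomic.Basic

/-!
# Coset lists of the Hecke operators at good primes, and multiplicativity for eigen systems

Through the coset list of a uniformiser idele at a good prime, an eigen system makes the
Whittaker function multiplicative.
-/

set_option autoImplicit false

noncomputable section

open IsDedekindDomain WithZero
open scoped NumberField

namespace Fermat.Agent.LT.Whittaker

open Places

variable {F : Type*} [Field F] [NumberField F] {U : Level F} {v : FinPlace F}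

/-- A coset with integral components at `S` has a representative trivial at `S`. -/
theorem exists_glPlace_one (S : Finset (FinPlace F)) (hU : ∀ v ∈ S, IsGoodAt U v) (g : GLFin F)
    (hg : ∀ v ∈ S, glPlace v g ∈ intGroup v) :
    ∃ g' : GLFin F, (g' : GLFin F ⧸ U.toSubgroup) = (g : GLFin F ⧸ U.toSubgroup) ∧
      (∀ v ∈ S, glPlace v g' = 1) ∧ ∀ w ∉ S, glPlace w g' = glPlace w g := by
  classical
  induction S using Finset.induction_on with
  | empty => exact ⟨g, rfl, fun v hv => absurd hv (Finset.notMem_empty v), fun w _ => rfl⟩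
  | insert v S hv ih =>
    obtain ⟨g', he, h1, h2⟩ := ih (fun w hw => hU w (Finset.mem_insert_of_mem hw))
      fun w hw => hg w (Finset.mem_insert_of_mem hw)
    have hint : (glPlace v g')⁻¹ ∈ intGroup v :=
      (intGroup v).inv_mem (by rw [h2 v hv]; exact hg v (Finset.mem_insert_self v S))
    refine ⟨g' * localGL v (glPlace v g')⁻¹, ?_, fun w hw => ?_, fun w hw => ?_⟩
    · rw [QuotientGroup.mk_mul_of_mem _ (hU v (Finset.mem_insert_self v S) _ hint), he]
    · rcases Finset.mem_insert.1 hw with rfl | hw
      · rw [map_mul, glPlace_localGL_same, mul_inv_cancel]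
      · rw [map_mul, glPlace_localGL_ne (fun h : w = v => hv (h ▸ hw)), mul_one, h1 w hw]
    · rw [Finset.mem_insert, not_or] at hw
      rw [map_mul, glPlace_localGL_ne hw.1, mul_one, h2 w hw.2]

/-- Places not dividing the discriminant are prime to the different. -/
theorem not_differentIdeal_le_of_discr (v : FinPlace F)
    (h : (NumberField.discr F : 𝓞 F) ∉ v.asIdeal) : ¬ differentIdeal ℤ (𝓞 F) ≤ v.asIdeal :=
  fun hle => h (hle (NumberField.discr_mem_differentIdeal F (𝓞 F)))

/-- Over `ℚ(ζ₃)` the places away from `3` are prime to the different. -/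
theorem not_differentIdeal_le_three {K : Type*} [Field K] [NumberField K]
    [IsCyclotomicExtension {3} ℚ K] (v : FinPlace K) (h : (3 : 𝓞 K) ∉ v.asIdeal) :
    ¬ differentIdeal ℤ (𝓞 K) ≤ v.asIdeal := by
  have : Fact (Nat.Prime 3) := ⟨Nat.prime_three⟩
  refine not_differentIdeal_le_of_discr v fun hd => h ?_
  rw [IsCyclotomicExtension.Rat.discr_prime 3 K] at hd
  simpa using hd

variable [NumberField.IsTotallyComplex F] {φ : Y U → ℂ}

/-- **Multiplicativity for an eigen system.** For `α` a unit at every place of `S` and a coset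
integral at `S`, `A (α ∏ π_v^{k_v}) = ∏ c_{k_v} · A α`. -/
theorem whit_prod_pow_eigenSystem (hφ : IsCuspEigen φ) {N : ℕ} (hN : 0 < N)
    {lam : Ideal (𝓞 F) → ℂ}
    (hlam : IsHeckeEigenSystem N φ lam) (S : Finset (FinPlace F))
    (hS : ∀ v ∈ S, (N : 𝓞 F) ∉ v.asIdeal) (hgood : ∀ v ∈ S, IsGoodAt U v)
    (hdiff : ∀ v ∈ S, ¬ differentIdeal ℤ (𝓞 F) ≤ v.asIdeal)
    (g : GLFin F) (hg : ∀ v ∈ S, glPlace v g ∈ intGroup v)
    (α : (FinAdele F)ˣ) (hα : ∀ v ∈ S, placeVal v (α : FinAdele F) = 1) (k : FinPlace F → ℕ) :
    whit φ (dia (α * ∏ v ∈ S, piUnit v ^ k v) • (g : GLFin F ⧸ U.toSubgroup))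
      = (∏ v ∈ S, heckeCoeff (Ideal.absNorm v.asIdeal) (lam v.asIdeal) (k v)) *
          whit φ (dia α • (g : GLFin F ⧸ U.toSubgroup)) := by
  classical
  obtain ⟨g', he, h1, -⟩ := exists_glPlace_one S hgood g hg
  let _ : ∀ v : FinPlace F, Fintype (Residue v) := fun v => Fintype.ofFinite _
  have h := whit_prod_pow_local hφ S hdiff hgood piUnit (fun v _ => placeVal_piUnit_same v)
    (fun v _ w _ hw => placeVal_piUnit_ne hw) resLift (fun v _ r => valued_resLift v r)
    (fun v hv => isCosetList_heckeRep (hgood v hv) (by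
      rw [mul_inv_cancel, dia_one]; exact U.toSubgroup.one_mem))
    (fun v => lam v.asIdeal)
    (fun v hv => hlam v.asIdeal v.isPrime v.ne_bot (hS v hv) _
        (isUniformiserAt_piUnit hN (hS v hv)))
    (g₀ := g') (fun v hv => by rw [h1 v hv]; exact (intGroup v).one_mem)
    (fun v hv o => ?_) α hα k
  · rw [← he, h]
    congr 1
    refine Finset.prod_congr rfl fun v _ => ?_
    rw [← Nat.card_eq_fintype_card, card_residue]
  have hc : ∀ x, Commute g' (localGL v x) := fun x =>
    (localGL_mul_comm x (by rw [h1 v hv]; exact Commute.one_right x)).symm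
  cases o with
  | some r =>
    have := hc (rep v (some r))
    rw [rep, map_mul, localGL_unip, show localGL v (piDia v) = dia (piUnit v) from piGL_eq_dia v]
        at this
    exact this
  | none =>
    have h0 := hc (rep v none)
    rw [localGL_rep_none] at h0
    have h3 : Commute g' (scalarFin F (piUnit v))⁻¹ :=
      Commute.inv_right (scalarFin_comm (piUnit v) g').symm
    have h4 := h3.mul_right h0
    rwa [inv_mul_cancel_left] at h4

end Fermat.Agent.LT.Whittaker
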