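import Fermat.Agent.LT.Whittaker.Expansion

/-!
# Parseval on the tori at a cusp

The integral over a stabilising torus of the product of a cusp eigenfunction and the conjugate of
another is the sum of the products of their Fourier coefficients.
-/

set_option autoImplicit false

noncomputable section

open MeasureTheory Set
open NumberField (InfinitePlace)
open scoped ComplexConjugate

namespace Fermat.Agent.LT.Whittaker

section Torus

variable {ι : Type*} [Fintype ι]

theorem integral_torusChar {k : ι → ℤ} (hk : k ≠ 0) : ∫ u in box ι, torusChar k u = 0 := by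
  classical
  obtain ⟨i, hi⟩ := Function.ne_iff.mp hk
  set s : ι → ℝ := Pi.single i (1 / (2 * (k i : ℝ))) with hs
  have hchar : torusChar k s = -1 := by
    rw [torusChar, show (2 * Real.pi * ∑ j, (k j : ℝ) * s j : ℝ) = Real.pi by
      rw [Finset.sum_eq_single i (fun j _ hj => by simp [hs, hj]) (by simp), hs, Pi.single_eq_same]
      have : (k i : ℝ) ≠ 0 := Int.cast_ne_zero.mpr hi
      field_simp]
    exact Complex.exp_pi_mul_I
  have h := integral_box_add (torusChar_periodic k) s
  simp only [torusChar_add, hchar, mul_neg, mul_one, integral_neg] at h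
  linear_combination (-1 / 2 : ℂ) * h

/-- Termwise integration of an absolutely convergent series of characters. -/
theorem hasSum_integral_series {κ : Type*} [Countable κ] {A : κ → ℂ} (hA : Summable A)
    (e : κ → ι → ℤ) {f : (ι → ℝ) → ℂ}
    (hf : ∀ u, HasSum (fun m => A m * torusChar (e m) u) (f u)) {h : (ι → ℝ) → ℂ}
    (hh : Continuous h) {C : ℝ} (hC : ∀ u, ‖h u‖ ≤ C) :
    HasSum (fun m => A m * ∫ u in box ι, torusChar (e m) u * h u)
      (∫ u in box ι, f u * h u) := by
  have := isFiniteMeasure_box (ι := ι)
  set F := fun (m : κ) (u : ι → ℝ) => A m * (torusChar (e m) u * h u) with hF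
  have hint : ∀ m, Integrable (F m) (volume.restrict (box ι)) := fun m =>
    Integrable.of_bound (((continuous_torusChar _).mul hh).const_mul _).aestronglyMeasurable
      (‖A m‖ * C) (Filter.Eventually.of_forall fun u => by
        simp only [hF, norm_mul, norm_torusChar, one_mul]
        exact mul_le_mul_of_nonneg_left (hC u) (norm_nonneg _))
  have hsum : Summable fun m => ∫ u in box ι, ‖F m u‖ := by
    refine Summable.of_nonneg_of_le (fun m => integral_nonneg fun u => norm_nonneg _) (fun m => ?_)
      (hA.norm.mul_right C)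
    calc ∫ u in box ι, ‖F m u‖ ≤ ∫ _u in box ι, (‖A m‖ * C : ℝ) := by
          refine integral_mono (hint m).norm (integrable_const _) fun u => ?_
          simp only [hF, norm_mul, norm_torusChar, one_mul]
          exact mul_le_mul_of_nonneg_left (hC u) (norm_nonneg _)
      _ = ‖A m‖ * C := by simp [measureReal_def, volume_box]
  have key := hasSum_integral_of_summable_integral_norm hint hsum
  simp only [hF, integral_const_mul] at key
  have heq : ∫ u in box ι, f u * h u =
      ∫ u in box ι, ∑' i : κ, A i * (torusChar (e i) u * h u) := by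
    refine integral_congr_ae (Filter.Eventually.of_forall fun u => ?_)
    simp only [← mul_assoc]
    exact ((hf u).mul_right (h u)).tsum_eq.symm
  rw [heq]
  exact key

/-- The coefficients of an absolutely convergent series. -/
theorem boxCoeff_of_hasSum [DecidableEq ι] {A : (ι → ℤ) → ℂ} (hA : Summable A)
    {f : (ι → ℝ) → ℂ} (hf : ∀ u, HasSum (fun m => A m * torusChar m u) (f u)) (n : ι → ℤ) :
    boxCoeff f n = A n := by
  have h := hasSum_integral_series hA id hf (continuous_torusChar (-n))
    (C := 1) (fun u => (norm_torusChar _ _).le)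
  have hval : ∀ m : ι → ℤ, ∫ u in box ι, torusChar m u * torusChar (-n) u
      = if m = n then 1 else 0 := by
    intro m
    have e : ∀ u, torusChar m u * torusChar (-n) u = torusChar (m - n) u := fun u => by
      simp only [torusChar, ← Complex.exp_add, Pi.neg_apply, Pi.sub_apply, Int.cast_neg,
        Int.cast_sub, sub_mul, neg_mul, Finset.sum_neg_distrib, Finset.sum_sub_distrib]
      congr 1
      push_cast
      ring
    simp only [e]
    split_ifs with hm
    · subst hm
      simp [torusChar, measureReal_def, volume_box]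
    · exact integral_torusChar (sub_ne_zero.mpr hm)
  simp only [id_eq, hval] at h
  rw [boxCoeff]
  simp only [mul_comm (torusChar (-n) _)]
  refine h.unique ?_
  convert hasSum_single n (f := fun m => A m * if m = n then (1 : ℂ) else 0) (fun m hm => by
    simp [hm]) using 1
  simp

/-- Parseval for two absolutely convergent series. -/
theorem hasSum_integral_mul_conj [DecidableEq ι] {A B : (ι → ℤ) → ℂ} (hA : Summable A)
    (hB : Summable B) {f g : (ι → ℝ) → ℂ} (hg : Continuous g) {C : ℝ} (hC : ∀ u, ‖g u‖ ≤ C)
    (hfs : ∀ u, HasSum (fun m => A m * torusChar m u) (f u))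
    (hgs : ∀ u, HasSum (fun m => B m * torusChar m u) (g u)) :
    HasSum (fun m => A m * conj (B m)) (∫ u in box ι, f u * conj (g u)) := by
  have h := hasSum_integral_series hA id hfs (h := fun u => conj (g u))
    (Complex.continuous_conj.comp hg) (C := C) (fun u => by simpa using hC u)
  refine h.congr_fun fun m => ?_
  rw [← boxCoeff_of_hasSum hB hgs m, boxCoeff, ← integral_conj]
  congr 1
  refine integral_congr_ae (Filter.Eventually.of_forall fun u => ?_)
  simp only [id_eq, map_mul]
  congr 1
  have h1 : torusChar (-m) u = conj (torusChar m u) := by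
    rw [torusChar, torusChar, ← Complex.exp_conj]
    congr 1
    simp [Finset.sum_neg_distrib, map_ofNat]
  rw [h1, Complex.conj_conj]

end Torus

variable {F : Type*} [Field F] [NumberField F] [NumberField.IsTotallyComplex F]
  {U₁ U₂ : Level F} {φ₁ : Y U₁ → ℂ} {φ₂ : Y U₂ → ℂ}
  {b : Module.Basis (Fin (Module.finrank ℚ F)) ℚ F}

/-- The expansion along a stabilising torus. -/
theorem hasSum_torusFn (h₁ : IsCuspEigen φ₁) {c : GLFin F ⧸ U₁.toSubgroup}
    (hb : ∀ i, glIncl F (unip (b i)) • c = c) {t : InfinitePlace F → ℝ} (ht : ∀ w, 0 < t w)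
    (u : Fin (Module.finrank ℚ F) → ℝ) :
    HasSum (fun n => coef φ₁ c (freq b n) * (bessel (freq b n) t : ℂ) * torusChar n u)
      (torusFn b φ₁ c t u) := by
  have h := (isExpansion_coef h₁ c).2 (boxEmb b u) t ht
  rw [← (freq_injective b).hasSum_iff fun ξ hξ => by
    rw [not_not.mp (mt (coef_support h₁ hb) hξ), zero_mul, zero_mul]] at h
  exact h.congr_fun fun n => by
    simp only [Function.comp_apply, expChar_freq]; ring

/-- **Parseval** at a cusp. -/
theorem hasSum_parseval (h₁ : IsCuspEigen φ₁) (h₂ : IsCuspEigen φ₂)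
    {c₁ : GLFin F ⧸ U₁.toSubgroup} {c₂ : GLFin F ⧸ U₂.toSubgroup}
    (hb₁ : ∀ i, glIncl F (unip (b i)) • c₁ = c₁) (hb₂ : ∀ i, glIncl F (unip (b i)) • c₂ = c₂)
    {t : InfinitePlace F → ℝ} (ht : ∀ w, 0 < t w) :
    HasSum (fun ξ : Fˣ => whit φ₁ (glIncl F (dia ξ) • c₁) *
        conj (whit φ₂ (glIncl F (dia ξ) • c₂)) * ((bessel (ξ : F) t) ^ 2 : ℝ))
      (∫ u in box (Fin (Module.finrank ℚ F)),
        φ₁ (ptAt (boxEmb b u) t, c₁) * conj (φ₂ (ptAt (boxEmb b u) t, c₂))) := by
  classical
  obtain ⟨C, hC⟩ := h₂.bounded
  have h1 := hasSum_torusFn h₁ hb₁ ht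
  have h2 := hasSum_torusFn h₂ hb₂ ht
  have z : torusChar (0 : Fin (Module.finrank ℚ F) → ℤ) = fun _ => 1 := by
    funext u; simp [torusChar]
  have s1 : Summable fun n => coef φ₁ c₁ (freq b n) * (bessel (freq b n) t : ℂ) :=
    (h1 0).summable.congr fun n => by simp [torusChar]
  have s2 : Summable fun n => coef φ₂ c₂ (freq b n) * (bessel (freq b n) t : ℂ) :=
    (h2 0).summable.congr fun n => by simp [torusChar]
  have h := hasSum_integral_mul_conj s1 s2 (continuous_torusFn b h₂ ht) (C := C)
    (fun u => hC _) h1 h2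
  set G : F → ℂ := fun ξ => coef φ₁ c₁ ξ * conj (coef φ₂ c₂ ξ) * ((bessel ξ t) ^ 2 : ℝ)
  have hG : HasSum G (∫ u in box (Fin (Module.finrank ℚ F)),
      φ₁ (ptAt (boxEmb b u) t, c₁) * conj (φ₂ (ptAt (boxEmb b u) t, c₂))) := by
    rw [← (freq_injective b).hasSum_iff fun ξ hξ => by
      simp only [G]
      rw [not_not.mp (mt (coef_support h₁ hb₁) hξ), zero_mul, zero_mul]]
    refine h.congr_fun fun n => ?_
    simp only [G, Function.comp_apply, map_mul, Complex.conj_ofReal]
    push_cast
    ring
  rw [← (show Function.Injective fun ξ : Fˣ => (ξ : F) from Units.val_injective).hasSum_iff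
    fun x hx => ?_] at hG
  · exact hG.congr_fun fun ξ => by
      simp only [G, Function.comp_apply, coef_eq_whit h₁, coef_eq_whit h₂]
  · have : x = 0 := by
      by_contra hx0
      exact hx ⟨Units.mk0 x hx0, rfl⟩
    simp [G, this, (isExpansion_coef h₁ c₁).1]

end Fermat.Agent.LT.Whittaker
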