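import Fermat.Agent.LT.Whittaker.Defs
import Fermat.Agent.LT.Reduction.Integral

/-!
# Unipotent and diagonal elements on `Y`, stabilisers of finite cosets

An automorphic function is invariant under the diagonal action of `unip β` and `dia a`; the `β`
whose unipotent fixes a finite coset contain a `ℚ`-basis of the field.
-/

set_option autoImplicit false

noncomputable section

open NumberField (InfinitePlace)
open scoped TensorProduct

namespace Fermat.Agent.LT.Whittaker

variable {F : Type*} [Field F]

/-- Ring homomorphisms map `unip u` to `unip (f u)`. -/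
theorem map_unip {R S : Type*} [CommRing R] [CommRing S] (f : R →+* S) (u : R) :
    Matrix.GeneralLinearGroup.map f (unip u) = unip (f u) := by
  ext i j; fin_cases i <;> fin_cases j <;> simp [unip]

/-- Ring homomorphisms map `dia a` to `dia (f a)`. -/
theorem map_dia {R S : Type*} [CommRing R] [CommRing S] (f : R →+* S) (a : Rˣ) :
    Matrix.GeneralLinearGroup.map f (dia a) = dia (Units.map f.toMonoidHom a) := by
  ext i j; fin_cases i <;> fin_cases j <;> simp [dia]

/-- The adelic image of a global unipotent matrix. -/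
theorem glIncl_unip (u : F) : glIncl F (unip u) = unip (finIncl F u) := map_unip _ u

/-- The adelic image of a global diagonal matrix. -/
theorem glIncl_dia (a : Fˣ) :
    glIncl F (dia a) = dia (Units.map (finIncl F).toMonoidHom a) := map_dia _ a

/-- `dia` is multiplicative. -/
theorem dia_mul {R : Type*} [CommRing R] (a b : Rˣ) : dia (a * b) = dia a * dia b := by
  ext i j; fin_cases i <;> fin_cases j <;> simp [dia, Matrix.mul_apply, Fin.sum_univ_two]

/-- `dia 1` is the identity. -/
@[simp] theorem dia_one {R : Type*} [CommRing R] : dia (1 : Rˣ) = 1 := by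
  ext i j; fin_cases i <;> fin_cases j <;> simp [dia]

/-- Conjugation of `unip u` by `dia a` is `unip (a u)`. -/
theorem dia_mul_unip {R : Type*} [CommRing R] (a : Rˣ) (u : R) :
    dia a * unip u = unip ((a : R) * u) * dia a := by
  ext i j; fin_cases i <;> fin_cases j <;>
    simp [dia, unip, Matrix.mul_apply, Fin.sum_univ_two]

variable [NumberField F]

omit [NumberField F] in
/-- An embedded unipotent matrix is a translation. -/
theorem glEmb_unip (w : InfinitePlace F) (β : F) :
    glEmb F w (unip β) = H3.affine 1 (w.embedding β) one_ne_zero := by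
  apply Units.ext
  rw [show glEmb F w (unip β) = unip (w.embedding β) from map_unip _ β]
  ext i j; fin_cases i <;> fin_cases j <;> simp [unip, H3.affine]

omit [NumberField F] in
/-- An embedded diagonal matrix is a dilation. -/
theorem glEmb_dia (w : InfinitePlace F) (a : Fˣ) :
    glEmb F w (dia a) = H3.affine (w.embedding a) 0
      ((map_ne_zero w.embedding).mpr a.ne_zero) := by
  apply Units.ext
  rw [show glEmb F w (dia a) = dia (Units.map w.embedding.toMonoidHom a) from map_dia _ a]
  ext i j; fin_cases i <;> fin_cases j <;> simp [dia, H3.affine]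

variable {U : Level F}

/-- Automorphic functions are invariant under global translations. -/
theorem phi_unip {φ : Y U → ℂ} (hφ : IsAutomorphic φ) (β : F) (z : InfinitePlace F → ℂ)
    {t : InfinitePlace F → ℝ} (ht : ∀ w, 0 < t w) (c : GLFin F ⧸ U.toSubgroup) :
    φ (ptAt (z + fun w => w.embedding β) t, glIncl F (unip β) • c) = φ (ptAt z t, c) := by
  rw [← hφ (unip β) (ptAt z t, c)]
  congr 1
  refine Prod.ext (funext fun w => ?_) (smul_snd U (unip β) (ptAt z t, c)).symm
  rw [smul_fst, glEmb_unip]
  show _ = H3.affine 1 (w.embedding β) one_ne_zero • H3.pt (z w) (t w)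
  rw [H3.affine_smul _ _ _ _ (ht w)]
  simp [ptAt]

/-- Automorphic functions are invariant under global dilations. -/
theorem phi_dia {φ : Y U → ℂ} (hφ : IsAutomorphic φ) (a : Fˣ) (z : InfinitePlace F → ℂ)
    {t : InfinitePlace F → ℝ} (ht : ∀ w, 0 < t w) (c : GLFin F ⧸ U.toSubgroup) :
    φ (ptAt (fun w => w.embedding a * z w) (fun w => w a * t w), glIncl F (dia a) • c)
      = φ (ptAt z t, c) := by
  rw [← hφ (dia a) (ptAt z t, c)]
  congr 1
  refine Prod.ext (funext fun w => ?_) (smul_snd U (dia a) (ptAt z t, c)).symm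
  rw [smul_fst, glEmb_dia]
  show _ = H3.affine (w.embedding a) 0 _ • H3.pt (z w) (t w)
  rw [H3.affine_smul _ _ _ _ (ht w), add_zero, InfinitePlace.norm_embedding_eq]
  rfl

/-- Elements `β` of `F` with `unip β` fixing the coset. -/
def stabAdd (c : GLFin F ⧸ U.toSubgroup) : AddSubgroup F where
  carrier := {β | glIncl F (unip β) • c = c}
  zero_mem' := by
    show glIncl F (unip 0) • c = c
    rw [unip, AddChar.map_zero_eq_one, map_one, one_smul]
  add_mem' {a b} ha hb := by
    show glIncl F (unip (a + b)) • c = c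
    rw [unip, AddChar.map_add_eq_mul, map_mul, mul_smul, hb, ha]
  neg_mem' {a} ha := by
    show glIncl F (unip (-a)) • c = c
    conv_lhs => rw [← (show glIncl F (unip a) • c = c from ha)]
    rw [← mul_smul, ← map_mul, ← AddChar.map_add_eq_mul, neg_add_cancel, AddChar.map_zero_eq_one,
      map_one, one_smul]

open Matrix in
/-- A coset is fixed by all sufficiently divisible adelic unipotents. -/
theorem exists_unip_smul (c : GLFin F ⧸ U.toSubgroup) :
    ∃ M : ℕ, 0 < M ∧ ∀ v ∈ integralAdele F, unip ((M : FinAdele F) * v) • c = c := by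
  classical
  induction c using QuotientGroup.induction_on with
  | H x =>
  obtain ⟨N, hN, hU⟩ := U.exists_principal
  obtain ⟨D, hD, hDm⟩ := Reduction.exists_denominator fun p : Fin 2 × Fin 2 =>
    (x⁻¹ : GLFin F).val p.1 0 * x.val 1 p.2
  refine ⟨D * N, Nat.mul_pos hD hN, fun v hv => ?_⟩
  show QuotientGroup.mk (unip _ * x) = QuotientGroup.mk x
  rw [eq_comm, QuotientGroup.eq]
  refine hU _ fun i j => ?_
  have hm : ∀ i j, (D : FinAdele F) * ((x⁻¹ : GLFin F).val i 0 * x.val 1 j) ∈ integralAdele F :=
    fun i j => hDm (i, j)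
  have key : ∀ u : FinAdele F, (x⁻¹ * (unip u * x)).val i j
      = (1 : Matrix (Fin 2) (Fin 2) (FinAdele F)) i j +
          u * ((x⁻¹ : GLFin F).val i 0 * x.val 1 j) := by
    intro u
    have hu : (unip u).val = 1 + u • Matrix.single 0 1 1 := by
      ext a b; fin_cases a <;> fin_cases b <;> simp [unip]
    rw [Units.val_mul, Units.val_mul, hu, Matrix.add_mul, Matrix.mul_add, Matrix.one_mul,
      ← Units.val_mul, inv_mul_cancel, Units.val_one]
    simp [Matrix.mul_apply, Fin.sum_univ_two, Matrix.single]
    ring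
  have hinv : (x⁻¹ * (unip (((D * N : ℕ) : FinAdele F) * v) * x))⁻¹
      = x⁻¹ * (unip (-(((D * N : ℕ) : FinAdele F) * v)) * x) := by
    rw [_root_.mul_inv_rev, _root_.mul_inv_rev, inv_inv, mul_assoc, unip,
      ← AddChar.map_neg_eq_inv]
  refine ⟨v * ((D : FinAdele F) * ((x⁻¹ : GLFin F).val i 0 * x.val 1 j)), mul_mem hv (hm i j),
    -(v * ((D : FinAdele F) * ((x⁻¹ : GLFin F).val i 0 * x.val 1 j))),
    neg_mem (mul_mem hv (hm i j)), ?_, ?_⟩
  · rw [key]; push_cast; ring
  · rw [hinv, key]; push_cast; ring

theorem exists_mem_stabAdd (c : GLFin F ⧸ U.toSubgroup) :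
    ∃ M : ℕ, 0 < M ∧ ∀ a : NumberField.RingOfIntegers F, (M : F) * a ∈ stabAdd c := by
  obtain ⟨M, hM, h⟩ := exists_unip_smul c
  refine ⟨M, hM, fun a => ?_⟩
  show glIncl F (unip _) • c = c
  rw [glIncl_unip, map_mul, map_natCast]
  exact h _ (Reduction.finIncl_mem_of_isIntegral a)

/-- Every coset has a `ℚ`-basis of stabilising translations. -/
theorem exists_stab_basis (c : GLFin F ⧸ U.toSubgroup) :
    ∃ b : Module.Basis (Fin (Module.finrank ℚ F)) ℚ F, ∀ i, glIncl F (unip (b i)) • c = c := by
  obtain ⟨M, hM, h⟩ := exists_mem_stabAdd c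
  let b₀ : Module.Basis (Fin (Module.finrank ℚ F)) ℚ F :=
    (NumberField.integralBasis F).reindex ((Fintype.equivFin _).trans (finCongr (by
      rw [Module.finrank_eq_card_basis (NumberField.integralBasis F)])))
  refine ⟨b₀.unitsSMul fun _ => Units.mk0 (M : ℚ) (by positivity), fun i => ?_⟩
  have : ∃ a : NumberField.RingOfIntegers F, b₀ i = (a : F) := ⟨_, by
    rw [Module.Basis.reindex_apply, NumberField.integralBasis_apply]⟩
  obtain ⟨a, ha⟩ := this
  rw [Module.Basis.unitsSMul_apply, ha, Units.smul_def, Units.val_mk0, Algebra.smul_def,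
    map_natCast]
  exact h a

end Fermat.Agent.LT.Whittaker
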