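import Fermat.Agent.LT.Whittaker.TestVector
import Fermat.Agent.LT.H3.ExpKernel

/-!
# Cusp eigenfunctions from radial eigenfunctions with vanishing unipotent averages

A bounded continuous automorphic eigenfunction some finite family of whose unipotent translates
sums to zero at every coset has vanishing constant terms, hence is a spherical cusp form.
-/

set_option autoImplicit false

noncomputable section

open NumberField (InfinitePlace)

namespace Fermat.Agent.LT.Whittaker

variable {F : Type*} [Field F] [NumberField F] [NumberField.IsTotallyComplex F] {U : Level F}

/-- A bounded continuous automorphic radial eigenfunction is a cusp form as soon as, at every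
coset, some finite family of finite unipotent translates sums to zero. -/
theorem isSphericalCuspForm_of_average {φ : Y U → ℂ} (hauto : IsAutomorphic φ)
    (hcont : ∀ c, Continuous fun P => φ (P, c)) (hbd : ∃ C : ℝ, ∀ y, ‖φ y‖ ≤ C)
    (hr : IsRadialEigen φ)
    (havg : ∀ c : GLFin F ⧸ U.toSubgroup, ∃ (n : ℕ) (u : Fin (n + 1) → FinAdele F),
      ∀ P, ∑ i, φ (P, unip (u i) • c) = 0) :
    IsSphericalCuspForm φ where
  cuspEigen :=
    { automorphic := hauto
      continuous := hcont
      bounded := hbd
      eigen := fun w y A hA => eigen_of_isRadialEigen hr hcont hbd w y A hA
      zeroConst := fun c t b ht hb => by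
        obtain ⟨C, hC⟩ := hbd
        obtain ⟨n, u, hu⟩ := havg c
        exact integral_box_eq_zero_of_average hauto hcont hC ht hb Finset.univ
          Finset.univ_nonempty u hu }
  radial := hr

end Fermat.Agent.LT.Whittaker
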