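import Mathlib.Analysis.Normed.Group.InfiniteSum
import Mathlib.Analysis.Normed.Ring.Lemmas
import Mathlib.Analysis.SpecificLimits.Basic
import Mathlib.Algebra.Field.GeomSum
import Mathlib.Analysis.Complex.Basic

/-!
# Absolutely convergent sums of distinct unitary characters, and sums of characters over finite sets
-/

set_option autoImplicit false

noncomputable section

open Filter Topology Finset

namespace Fermat.Agent.LT.Whittaker

variable {ι G : Type*} [AddCommMonoid G]

/-- Bound for one term of a family summing to zero, from a bound for the tails of a majorant. -/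
theorem norm_le_of_hasSum_zero {ι : Type*} [DecidableEq ι] {f a : ι → ℂ} (h0 : HasSum f 0)
    (ha : Summable fun i => ‖a i‖) (hle : ∀ i, ‖f i‖ ≤ ‖a i‖) {s : Finset ι} {ε : ℝ}
    (hs : ∀ u : Finset ι, Disjoint u s → ∑ i ∈ u, ‖a i‖ ≤ ε) (i₀ : ι) :
    ‖f i₀‖ ≤ ∑ j ∈ s.erase i₀, ‖f j‖ + ε := by
  have hsplit := h0.summable.sum_add_tsum_compl (s := insert i₀ s)
  rw [h0.tsum_eq, ← add_sum_erase (insert i₀ s) f (mem_insert_self _ _), erase_insert_eq_erase,
    add_assoc] at hsplit
  have heq := eq_neg_of_add_eq_zero_left hsplit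
  have hfn : Summable fun i => ‖f i‖ :=
    Summable.of_nonneg_of_le (fun _ => norm_nonneg _) hle ha
  have hgen : ∀ t : Set ι, Disjoint t (s : Set ι) → ‖∑' i : t, f i.1‖ ≤ ε := by
    intro t ht
    have h1 : Summable (fun i : t => ‖f i.1‖) := hfn.comp_injective Subtype.val_injective
    have h2 : Summable (fun i : t => ‖a i.1‖) := ha.comp_injective Subtype.val_injective
    have h3 := norm_tsum_le_tsum_norm h1
    have h4 := Summable.tsum_le_tsum (f := fun i : t => ‖f i.1‖) (g := fun i : t => ‖a i.1‖)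
      (fun i => hle i.1) h1 h2
    refine le_trans h3 (le_trans h4 ?_)
    refine h2.tsum_le_of_sum_le fun u => ?_
    have hu := hs (u.map (Function.Embedding.subtype _)) ?_
    · rwa [Finset.sum_map] at hu
    · rw [Finset.disjoint_left]
      intro i hi his
      obtain ⟨⟨j, hj⟩, -, rfl⟩ := Finset.mem_map.mp hi
      exact Set.disjoint_left.mp ht hj his
  have htail := hgen (((insert i₀ s : Finset ι) : Set ι)ᶜ)
    (Set.disjoint_left.mpr fun i hi his => hi (by simp [Finset.mem_coe.mp his]))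
  conv_lhs => rw [heq, norm_neg]
  exact (norm_add_le _ _).trans (add_le_add (norm_sum_le _ _) htail)

/-- A summable combination of pairwise distinct unitary characters that vanishes identically has
vanishing coefficients. -/
theorem eq_zero_of_hasSum_char {a : ι → ℂ} (ha : Summable fun i => ‖a i‖) (χ : ι → AddChar G ℂ)
    (hχ : ∀ i g, ‖χ i g‖ = 1) (hinj : Function.Injective χ)
    (h : ∀ g, HasSum (fun i => a i * χ i g) 0) : a = 0 := by
  classical
  funext i₀
  by_contra hne
  rw [Pi.zero_apply] at hne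
  have hpos : 0 < ‖a i₀‖ := norm_pos_iff.mpr hne
  obtain ⟨s, hs⟩ := (ha.vanishing (Metric.ball_mem_nhds 0 (half_pos hpos)))
  have hv : ∀ j ∈ s.erase i₀, ∃ g, χ j g ≠ χ i₀ g := fun j hj => by
    by_contra hc
    push Not at hc
    exact (mem_erase.mp hj).1 (hinj (DFunLike.ext _ _ hc))
  choose! v hv using hv
  -- the normalised averages of the multipliers
  let q : ι → ι → ℂ := fun j i => χ i (v j) / χ i₀ (v j)
  have hq : ∀ j i, ‖q j i‖ = 1 := fun j i => by simp [q, hχ]
  let avg : ℕ → ι → ι → ℂ := fun n j i => (n : ℂ)⁻¹ * ∑ k ∈ range n, q j i ^ k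
  have havg_le : ∀ n j i, ‖avg n j i‖ ≤ 1 := fun n j i => by
    rw [norm_mul, norm_inv, Complex.norm_natCast]
    rcases Nat.eq_zero_or_pos n with rfl | hn
    · simp
    · rw [inv_mul_le_iff₀ (by exact_mod_cast hn), mul_one]
      refine (norm_sum_le _ _).trans ?_
      simp [hq]
  have havg_one : ∀ n j, 0 < n → avg n j i₀ = 1 := fun n j hn => by
    have : q j i₀ = 1 := div_self fun h0 => by simpa [h0] using hχ i₀ (v j)
    simp [avg, this, hn.ne']
  have havg_small : ∀ n, ∀ j ∈ s.erase i₀, ‖avg n j j‖ ≤ (n : ℝ)⁻¹ * (2 / ‖q j j - 1‖) := by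
    intro n j hj
    have hq1 : q j j ≠ 1 := fun h1 => hv j hj (by
      rwa [div_eq_one_iff_eq (fun h0 => by simpa [h0] using hχ i₀ (v j))] at h1)
    rw [norm_mul, norm_inv, Complex.norm_natCast, geom_sum_eq hq1, norm_div]
    gcongr
    refine (norm_sub_le _ _).trans ?_
    rw [norm_pow, hq, one_pow, norm_one]
    norm_num
  -- iterate the averaging over a finite set of directions
  have key : ∀ (n : ℕ) (T : Finset ι) (g : G),
      HasSum (fun i => a i * χ i g * ∏ j ∈ T, avg n j i) 0 := by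
    intro n T
    induction T using Finset.induction_on with
    | empty => simpa using h
    | insert j T hj ih =>
      intro g
      have hk : HasSum (fun i => ∑ k ∈ range n, ((n : ℂ)⁻¹ * (χ i₀ (v j))⁻¹ ^ k)
          * (a i * χ i (g + k • v j) * ∏ j ∈ T, avg n j i)) 0 := by
        have := hasSum_sum (s := range n) fun k _ =>
          (ih (g + k • v j)).mul_left ((n : ℂ)⁻¹ * (χ i₀ (v j))⁻¹ ^ k)
        simpa using this
      refine hk.congr_fun fun i => ?_
      simp only [prod_insert hj, avg, q, AddChar.map_add_eq_mul, AddChar.map_nsmul_eq_pow,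
        Finset.mul_sum, Finset.sum_mul, div_pow, inv_pow]
      refine Finset.sum_congr rfl fun k _ => ?_
      ring
  have hbound : ∀ n : ℕ, 0 < n → ‖a i₀‖ ≤
      (∑ j ∈ s.erase i₀, ‖a j‖ * ((n : ℝ)⁻¹ * (2 / ‖q j j - 1‖))) + ‖a i₀‖ / 2 := by
    intro n hn
    set f : ι → ℂ := fun i => a i * χ i 0 * ∏ j ∈ s.erase i₀, avg n j i with hf
    have hf0 : f i₀ = a i₀ := by
      simp [hf, Finset.prod_congr rfl fun j (_ : j ∈ s.erase i₀) => havg_one n j hn]
    have hfle : ∀ i, ‖f i‖ ≤ ‖a i‖ := fun i => by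
      rw [hf, norm_mul, norm_mul, hχ, mul_one]
      exact mul_le_of_le_one_right (norm_nonneg _)
        ((norm_prod _ _).le.trans (prod_le_one (fun _ _ => norm_nonneg _) fun j _ => havg_le n j i))
    have hfsmall : ∀ j ∈ s.erase i₀, ‖f j‖ ≤ ‖a j‖ * ((n : ℝ)⁻¹ * (2 / ‖q j j - 1‖)) := by
      intro j hj
      rw [hf, norm_mul, norm_mul, hχ, mul_one]
      refine mul_le_mul_of_nonneg_left ?_ (norm_nonneg _)
      rw [norm_prod, ← mul_prod_erase _ _ hj]
      exact (mul_le_of_le_one_right (norm_nonneg _)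
        (prod_le_one (fun _ _ => norm_nonneg _) fun k _ => havg_le n k j)).trans (havg_small n j hj)
    have h0 : HasSum f 0 := key n (s.erase i₀) 0
    have hb := norm_le_of_hasSum_zero h0 ha hfle (s := s) (ε := ‖a i₀‖ / 2) (fun u hu => ?_) i₀
    · rw [hf0] at hb
      exact hb.trans (by gcongr with j hj; exact hfsmall j hj)
    · have := hs u hu
      rw [mem_ball_zero_iff, Real.norm_eq_abs,
        abs_of_nonneg (sum_nonneg fun _ _ => norm_nonneg _)] at this
      exact this.le
  have hlim : Tendsto (fun n : ℕ => (∑ j ∈ s.erase i₀, ‖a j‖ * ((n : ℝ)⁻¹ * (2 / ‖q j j - 1‖)))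
      + ‖a i₀‖ / 2) atTop (𝓝 (∑ j ∈ s.erase i₀, ‖a j‖ * (0 * (2 / ‖q j j - 1‖)) + ‖a i₀‖ / 2)) :=
    (tendsto_finsetSum _ fun j _ =>
      ((tendsto_inv_atTop_nhds_zero_nat (𝕜 := ℝ)).mul_const _).const_mul _).add_const _
  have := le_of_tendsto_of_tendsto tendsto_const_nhds hlim
    ((eventually_gt_atTop 0).mono hbound)
  simp at this
  linarith

end Fermat.Agent.LT.Whittaker
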