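import Fermat.Agent.LT.Whittaker.Characters
import Fermat.Agent.LT.Whittaker.Coefficient

/-!
# The Fourier expansion at a cusp and its uniqueness

Each coefficient along a stabilising torus is a multiple of the product of Bessel functions; the
resulting coefficients are independent of the torus and are the values of the Whittaker function.
-/

set_option autoImplicit false

noncomputable section

open MeasureTheory Set
open NumberField (InfinitePlace)

namespace Fermat.Agent.LT.Whittaker

variable {F : Type*} [Field F] [NumberField F]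

/-- The character is `1` at the origin. -/
theorem expChar_zero (ξ : F) : expChar ξ 0 = 1 := by simp [expChar, pairing]

/-- The character is additive. -/
theorem expChar_add (ξ : F) (z z' : InfinitePlace F → ℂ) :
    expChar ξ (z + z') = expChar ξ z * expChar ξ z' := by
  rw [expChar, expChar, expChar, ← Complex.exp_add, pairing]
  simp only [pairing, Pi.add_apply, mul_add, Complex.add_re, Finset.sum_add_distrib]
  congr 1
  push_cast
  ring

/-- The character is unitary. -/
theorem norm_expChar (ξ : F) (z : InfinitePlace F → ℂ) : ‖expChar ξ z‖ = 1 :=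
  Complex.norm_exp_ofReal_mul_I _

variable (F) in
/-- `z ↦ e (Tr (ξ z))` as an additive character. -/
def expAddChar (ξ : F) : AddChar (InfinitePlace F → ℂ) ℂ where
  toFun := expChar ξ
  map_zero_eq_one' := expChar_zero ξ
  map_add_eq_mul' := expChar_add ξ

theorem pairing_real_mul (ξ : F) (r : ℝ) (z : InfinitePlace F → ℂ) :
    pairing ξ (fun w => (r : ℂ) * z w) = r * pairing ξ z := by
  rw [pairing, pairing, Finset.mul_sum]
  refine Finset.sum_congr rfl fun w _ => ?_
  rw [show w.embedding ξ * ((r : ℂ) * z w) = (r : ℂ) * (w.embedding ξ * z w) by ring,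
    Complex.re_ofReal_mul]
  ring

/-- Distinct elements of `F` give distinct characters. -/
theorem expChar_injective : Function.Injective (expChar (F := F)) := by
  intro ξ η h
  have key : ∀ z : InfinitePlace F → ℂ, pairing (ξ - η) z = 0 := by
    intro z
    set v := pairing (ξ - η) z with hv
    by_contra hne
    set c : ℂ := (((2 * v)⁻¹ : ℝ) : ℂ) with hc
    have hp : pairing (ξ - η) (fun w => c * z w) = 1 / 2 := by
      have : pairing (ξ - η) (fun w => c * z w) = (2 * v)⁻¹ * v := pairing_real_mul _ _ _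
      rw [this]; field_simp
    have hsub : ∀ z' : InfinitePlace F → ℂ,
        pairing (ξ - η) z' = pairing ξ z' - pairing η z' := fun z' => by
      simp [pairing, sub_mul, mul_sub, Finset.sum_sub_distrib]
    rw [hsub] at hp
    have h1 := congrFun h (fun w => c * z w)
    rw [expChar, expChar, Complex.exp_eq_exp_iff_exists_int] at h1
    obtain ⟨n, hn⟩ := h1
    have hn' := congrArg Complex.im hn
    simp only [Complex.mul_im, Complex.add_im, Complex.ofReal_re, Complex.ofReal_im, Complex.I_re,
      Complex.I_im, Complex.mul_re, Complex.intCast_re, Complex.intCast_im, mul_zero, mul_one,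
      zero_mul, sub_zero, add_zero, zero_add] at hn'
    norm_num at hn'
    have h2 : pairing ξ (fun w => c * z w) - pairing η (fun w => c * z w) = n := by
      have hpi := Real.pi_pos
      nlinarith
    rw [hp] at h2
    have h3 : (2 : ℝ) * n = 1 := by linarith
    have h4 : (2 : ℤ) * n = 1 := by exact_mod_cast h3
    omega
  by_contra hne
  have h0 := key fun w => starRingEnd ℂ (w.embedding (ξ - η))
  simp only [pairing, Complex.mul_conj, Complex.ofReal_re] at h0
  have hpos : 0 < ∑ w : InfinitePlace F, 2 * Complex.normSq (w.embedding (ξ - η)) :=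
    Finset.sum_pos (fun w _ => mul_pos two_pos
      (Complex.normSq_pos.mpr ((map_ne_zero w.embedding).mpr (sub_ne_zero.mpr hne))))
      Finset.univ_nonempty
  linarith

/-- The Bessel factor of a nonzero frequency is positive. -/
theorem bessel_pos {ξ : F} (hξ : ξ ≠ 0) {t : InfinitePlace F → ℝ} (ht : ∀ w, 0 < t w) :
    0 < bessel ξ t := by
  refine Finset.prod_pos fun w _ => ?_
  have := (InfinitePlace.pos_iff (w := w)).mpr hξ
  have := ht w
  exact mul_pos (by positivity) (besselK_pos (by positivity))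

/-- Exponential decay of the Bessel factor. -/
theorem bessel_le {ξ : F} (hξ : ξ ≠ 0) {t : InfinitePlace F → ℝ} (ht : ∀ w, 0 < t w) :
    bessel ξ t ≤ (2 ^ Fintype.card (InfinitePlace F) *
        Real.exp (-(2 * Real.pi * ∑ w : InfinitePlace F, w ξ * t w))) *
      bessel ξ (fun w => t w / 2) := by
  have e : 2 ^ Fintype.card (InfinitePlace F) *
      Real.exp (-(2 * Real.pi * ∑ w : InfinitePlace F, w ξ * t w)) =
      ∏ w : InfinitePlace F, (2 * Real.exp (-(2 * Real.pi * (w ξ * t w)))) := by
    rw [Finset.prod_mul_distrib, Finset.prod_const, Finset.card_univ, ← Real.exp_sum,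
      Finset.mul_sum, Finset.sum_neg_distrib]
  rw [e, bessel, bessel, ← Finset.prod_mul_distrib]
  refine Finset.prod_le_prod (fun w _ => ?_) fun w _ => ?_
  · have := (InfinitePlace.pos_iff (w := w)).mpr hξ
    have := ht w
    exact mul_nonneg (by positivity) (besselK_pos (by positivity)).le
  · have hw := (InfinitePlace.pos_iff (w := w)).mpr hξ
    have := ht w
    have hk := besselK_le (A := 4 * Real.pi * (w ξ * t w)) (by positivity)
    rw [show 4 * Real.pi * (w ξ * t w) / 2 = 4 * Real.pi * (w ξ * (t w / 2)) by ring] at hk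
    calc w ξ * t w * besselK (4 * Real.pi * (w ξ * t w))
        ≤ w ξ * t w * (Real.exp (-(4 * Real.pi * (w ξ * (t w / 2)))) *
            besselK (4 * Real.pi * (w ξ * (t w / 2)))) :=
          mul_le_mul_of_nonneg_left hk (by positivity)
      _ = _ := by
          rw [show 4 * Real.pi * (w ξ * (t w / 2)) = 2 * Real.pi * (w ξ * t w) by ring]
          ring

variable [NumberField.IsTotallyComplex F] {U : Level F} {φ : Y U → ℂ}
  {c : GLFin F ⧸ U.toSubgroup} {b : Module.Basis (Fin (Module.finrank ℚ F)) ℚ F}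

omit [NumberField.IsTotallyComplex F] in
/-- A nonzero index gives a nonzero frequency. -/
theorem freq_ne_zero {n : Fin (Module.finrank ℚ F) → ℤ} (hn : n ≠ 0) : freq b n ≠ 0 := fun h =>
  hn (freq_injective b (h.trans (by simp [freq])))

open Classical in
/-- Every coefficient is a multiple of the Bessel product. -/
theorem exists_torusCoeff_eq (hφ : IsCuspEigen φ) (hb : ∀ i, glIncl F (unip (b i)) • c = c) :
    ∃ a : (Fin (Module.finrank ℚ F) → ℤ) → ℂ, a 0 = 0 ∧ ∀ n t, (∀ w, 0 < t w) →
      torusCoeff b φ c n t = a n * (bessel (freq b n) t : ℂ) := by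
  set ω : (Fin (Module.finrank ℚ F) → ℤ) → InfinitePlace F → ℝ :=
    fun n w => 4 * Real.pi * w (freq b n) with hω
  refine ⟨fun n => if n = 0 then 0 else
    torusCoeff b φ c n (fun w => 1 / ω n w) /
      ((∏ w : InfinitePlace F, (1 / ω n w) * (w (freq b n) * besselK 1) : ℝ) : ℂ), by simp,
    fun n t ht => ?_⟩
  beta_reduce
  split_ifs with hn
  · subst hn
    rw [zero_mul, torusCoeff, boxCoeff_zero]
    exact hφ.zeroConst c t b ht hb
  have hξ : ∀ w : InfinitePlace F, 0 < w (freq b n) := fun w =>
    InfinitePlace.pos_iff.mpr (freq_ne_zero hn)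
  have hωpos : ∀ w, 0 < ω n w := fun w => by have := hξ w; positivity
  set H : (InfinitePlace F → ℝ) → ℂ := fun x =>
    torusCoeff b φ c n (fun w => x w / ω n w) / ((∏ w, x w / ω n w : ℝ) : ℂ) with hH
  have hkey := eq_prod_besselK (h := H) (fun w x hx A hA => ?_)
    (x := fun w => ω n w * t w) (fun w => mul_pos (hωpos w) (ht w))
  swap
  · set s₀ : InfinitePlace F → ℝ := fun v => x v / ω n v with hs₀
    have hs₀pos : ∀ v, 0 < s₀ v := fun v => div_pos (hx v) (hωpos v)
    have he := torusCoeff_eigen b hφ hb n w hs₀pos hA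
    set R : ℝ := ∏ v ∈ Finset.univ.erase w, s₀ v with hR
    have hRpos : 0 < R := Finset.prod_pos fun v _ => hs₀pos v
    have hP : ∏ v, s₀ v = s₀ w * R := (Finset.mul_prod_erase _ _ (Finset.mem_univ w)).symm
    have hww := hωpos w
    have h1 := (integral_comp_mul_left_Ioi' (fun v => ((symKer A (x w) v / v : ℝ) : ℂ) *
      H (Function.update x w v)) 0 (hωpos w))
    rw [mul_zero] at h1
    rw [← h1, ← integral_smul]
    set E : ℝ → ℝ := fun s => Real.exp (-(A * (s₀ w / s + s / s₀ w) / 2) -
      (4 * Real.pi * w (freq b n)) ^ 2 * s₀ w * s / (2 * A)) with hE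
    have hpt : ∀ s ∈ Ioi (0 : ℝ), ω n w • (((symKer A (x w) (ω n w * s) / (ω n w * s) : ℝ) : ℂ) *
        H (Function.update x w (ω n w * s)))
        = ((2 * Real.pi * s₀ w / A * ((s ^ 2)⁻¹ * E s) : ℝ) : ℂ) *
          torusCoeff b φ c n (Function.update s₀ w s) *
            ((A / (2 * Real.pi * s₀ w * R) : ℝ) : ℂ) := by
      intro s hs
      have hs' : (0 : ℝ) < s := hs
      have hupd : (fun v => Function.update x w (ω n w * s) v / ω n v)
          = Function.update s₀ w s := by
        funext v
        rcases eq_or_ne v w with rfl | hv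
        · simp [hww.ne']
        · simp [hv, hs₀]
      have hprod : ∏ v, Function.update s₀ w s v = s * R := by
        rw [Finset.prod_update_of_mem (Finset.mem_univ w), ← Finset.erase_eq]
      have hsym : symKer A (x w) (ω n w * s) = E s := by
        have hxw : x w = ω n w * s₀ w := by rw [hs₀]; field_simp
        rw [symKer, hxw, hE, show ω n w = 4 * Real.pi * w (freq b n) from rfl]
        congr 1
        have := hξ w
        have := hs₀pos w
        field_simp
        ring
      simp only [hH]
      rw [hupd]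
      erw [hprod]
      rw [hsym, Complex.real_smul]
      have hA' : (A : ℂ) ≠ 0 := Complex.ofReal_ne_zero.mpr hA.ne'
      have hsc : (s : ℂ) ≠ 0 := Complex.ofReal_ne_zero.mpr hs'.ne'
      have hR' : (R : ℂ) ≠ 0 := Complex.ofReal_ne_zero.mpr hRpos.ne'
      have hw' : (ω n w : ℂ) ≠ 0 := Complex.ofReal_ne_zero.mpr hww.ne'
      have hs0' : (s₀ w : ℂ) ≠ 0 := Complex.ofReal_ne_zero.mpr (hs₀pos w).ne'
      have hpi : (Real.pi : ℂ) ≠ 0 := Complex.ofReal_ne_zero.mpr Real.pi_ne_zero
      push_cast
      field_simp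
    rw [setIntegral_congr_fun measurableSet_Ioi hpt, integral_mul_const, he]
    simp only [hH]
    rw [show (fun v => x v / ω n v) = s₀ from rfl, hP, sphEigen]
    have hA' : (A : ℂ) ≠ 0 := Complex.ofReal_ne_zero.mpr hA.ne'
    have hR' : (R : ℂ) ≠ 0 := Complex.ofReal_ne_zero.mpr hRpos.ne'
    have hs0' : (s₀ w : ℂ) ≠ 0 := Complex.ofReal_ne_zero.mpr (hs₀pos w).ne'
    have hpi : (Real.pi : ℂ) ≠ 0 := Complex.ofReal_ne_zero.mpr Real.pi_ne_zero
    push_cast
    field_simp
    ring
  simp only [hH] at hkey
  have e1 : (fun w => ω n w * t w / ω n w) = t := funext fun w => by field_simp [(hωpos w).ne']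
  rw [e1] at hkey
  have hP : ((Finset.univ.prod t : ℝ) : ℂ) ≠ 0 :=
    Complex.ofReal_ne_zero.mpr (Finset.prod_pos fun w _ => ht w).ne'
  rw [div_eq_iff hP] at hkey
  rw [hkey, bessel, div_eq_mul_inv, div_eq_mul_inv]
  push_cast
  rw [← Finset.prod_inv_distrib, ← Finset.prod_inv_distrib, mul_assoc, mul_assoc, mul_assoc,
    ← Finset.prod_mul_distrib, ← Finset.prod_mul_distrib, ← Finset.prod_mul_distrib]
  congr 1
  refine Finset.prod_congr rfl fun w _ => ?_
  have h1 : (ω n w : ℂ) ≠ 0 := Complex.ofReal_ne_zero.mpr (hωpos w).ne'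
  have h2 : ((w (freq b n) : ℝ) : ℂ) ≠ 0 := Complex.ofReal_ne_zero.mpr (hξ w).ne'
  have h3 : (besselK 1 : ℂ) ≠ 0 := Complex.ofReal_ne_zero.mpr (besselK_pos one_pos).ne'
  rw [show 4 * Real.pi * (w (freq b n) * t w) = ω n w * t w by rw [hω]; ring]
  field_simp

theorem exists_isExpansion (hφ : IsCuspEigen φ) (hb : ∀ i, glIncl F (unip (b i)) • c = c) :
    ∃ a : F → ℂ, IsExpansion φ c a ∧ (∀ ξ, a ξ ≠ 0 → ξ ∈ Set.range (freq b)) := by
  obtain ⟨a₀, ha0, ha⟩ := exists_torusCoeff_eq hφ hb
  obtain ⟨C, hC⟩ := hφ.bounded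
  refine ⟨Function.extend (freq b) a₀ 0, ⟨?_, fun z t ht => ?_⟩, fun ξ hξ => ?_⟩
  · rw [show (0 : F) = freq b 0 by simp [freq], (freq_injective b).extend_apply, ha0]
  swap
  · by_contra hmem
    exact hξ (Function.extend_apply' _ _ _ hmem)
  rw [← (freq_injective b).hasSum_iff (fun ξ hξ => by
    rw [Function.extend_apply' _ _ _ hξ]; simp)]
  set m : ℝ := (∑ w, 1 / t w)⁻¹ with hm
  have hsum : 0 < ∑ w, 1 / t w :=
    Finset.sum_pos (fun w _ => div_pos one_pos (ht w)) Finset.univ_nonempty
  have hm0 : 0 < m := inv_pos.mpr hsum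
  have hmle : ∀ w, m ≤ t w := fun w => by
    rw [hm, inv_le_comm₀ hsum (ht w), inv_eq_one_div]
    exact Finset.single_le_sum (f := fun v => 1 / t v) (fun v _ => (div_pos one_pos (ht v)).le)
      (Finset.mem_univ w)
  have ht2 : ∀ w, 0 < t w / 2 := fun w => half_pos (ht w)
  have hbound : ∀ n, ‖torusCoeff b φ c n t‖ ≤ C * (2 ^ Fintype.card (InfinitePlace F) *
      Real.exp (-(2 * Real.pi * m * ∑ w : InfinitePlace F, w (freq b n)))) := by
    intro n
    have hC0 : 0 ≤ C := (norm_nonneg _).trans (hC (ptAt z t, c))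
    rcases eq_or_ne n 0 with rfl | hn
    · rw [ha 0 t ht, ha0, zero_mul, norm_zero]; positivity
    have hξ := freq_ne_zero (b := b) hn
    have h2 := norm_torusCoeff_le b hC n (fun w => t w / 2) (c := c)
    rw [ha n _ ht2, norm_mul, Complex.norm_real, Real.norm_of_nonneg (bessel_pos hξ ht2).le] at h2
    rw [ha n t ht, norm_mul, Complex.norm_real, Real.norm_of_nonneg (bessel_pos hξ ht).le]
    calc ‖a₀ n‖ * bessel (freq b n) t
        ≤ ‖a₀ n‖ * ((2 ^ Fintype.card (InfinitePlace F) *
          Real.exp (-(2 * Real.pi * m * ∑ w : InfinitePlace F, w (freq b n)))) *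
            bessel (freq b n) fun w => t w / 2) := by
          refine mul_le_mul_of_nonneg_left ((bessel_le hξ ht).trans ?_) (norm_nonneg _)
          refine mul_le_mul_of_nonneg_right ?_ (bessel_pos hξ ht2).le
          refine mul_le_mul_of_nonneg_left (Real.exp_le_exp.mpr ?_) (by positivity)
          rw [neg_le_neg_iff, mul_assoc]
          refine mul_le_mul_of_nonneg_left ?_ (by positivity)
          rw [Finset.mul_sum]
          exact Finset.sum_le_sum fun w _ => by
            rw [mul_comm]; exact mul_le_mul_of_nonneg_left (hmle w) (apply_nonneg w _)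
      _ = ‖a₀ n‖ * bessel (freq b n) (fun w => t w / 2) * _ := by ring
      _ ≤ C * _ := mul_le_mul_of_nonneg_right h2 (by positivity)
  have hsm : Summable (boxCoeff (torusFn b φ c t)) :=
    Summable.of_norm_bounded (((summable_exp_freq b (by positivity : (0 : ℝ) < 2 * Real.pi * m)
      ).mul_left _).mul_left C) hbound
  have h := hasSum_boxCoeff (torusFn_periodic b hφ.automorphic hb ht)
    (continuous_torusFn b hφ ht) hsm (boxInv b z)
  rw [torusFn, boxEmb_boxInv] at h
  refine h.congr_fun fun n => ?_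
  rw [Function.comp_apply, (freq_injective b).extend_apply, expChar_freq_eq]
  show _ = torusCoeff b φ c n t * _
  rw [ha n t ht]
  ring

omit [NumberField.IsTotallyComplex F] in
/-- An expansion determines its coefficients. -/
theorem IsExpansion.unique {a a' : F → ℂ} (h : IsExpansion φ c a) (h' : IsExpansion φ c a') :
    a = a' := by
  have ht : ∀ w : InfinitePlace F, (0 : ℝ) < (fun _ => (1 : ℝ)) w := fun _ => one_pos
  set d : F → ℂ := fun ξ => (a ξ - a' ξ) * (bessel ξ fun _ => (1 : ℝ) : ℂ) with hd
  have hd0 : ∀ z, HasSum (fun ξ => d ξ * expChar ξ z) 0 := fun z => by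
    have := (h.2 z _ ht).sub (h'.2 z _ ht)
    rw [sub_self] at this
    exact this.congr_fun fun ξ => by simp only [hd]; ring
  have hs : Summable fun ξ => ‖d ξ‖ := by
    refine (summable_norm_iff.mpr (hd0 0).summable).congr fun ξ => ?_
    rw [expChar_zero, mul_one]
  have hzero := eq_zero_of_hasSum_char (a := d) hs (expAddChar F) (fun ξ z => norm_expChar ξ z)
    (fun ξ η he => expChar_injective (funext fun z => DFunLike.congr_fun he z)) hd0
  funext ξ
  rcases eq_or_ne ξ 0 with rfl | hξ
  · rw [h.1, h'.1]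
  · have := congrFun hzero ξ
    rw [hd, Pi.zero_apply] at this
    have hb0 : (bessel ξ fun _ => (1 : ℝ) : ℂ) ≠ 0 :=
      Complex.ofReal_ne_zero.mpr (bessel_pos hξ ht).ne'
    exact sub_eq_zero.mp ((mul_eq_zero.mp this).resolve_right hb0)

/-- Every cusp eigenfunction has an expansion at every coset. -/
theorem isExpansion_coef (hφ : IsCuspEigen φ) (c : GLFin F ⧸ U.toSubgroup) :
    IsExpansion φ c (coef φ c) := by
  obtain ⟨b, hb⟩ := exists_stab_basis c
  obtain ⟨a, ha, -⟩ := exists_isExpansion hφ hb
  rw [coef, dif_pos ⟨a, ha⟩]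
  exact Exists.choose_spec _

omit [NumberField.IsTotallyComplex F] in
/-- The coefficients of an expansion are unique. -/
theorem coef_eq_of_isExpansion {a : F → ℂ} (ha : IsExpansion φ c a) : coef φ c = a := by
  rw [coef, dif_pos ⟨a, ha⟩]
  exact IsExpansion.unique (Exists.choose_spec (⟨a, ha⟩ : ∃ a, IsExpansion φ c a)) ha

/-- The coefficients at `c` are supported on the dual lattice of any stabilising basis. -/
theorem coef_support (hφ : IsCuspEigen φ) (hb : ∀ i, glIncl F (unip (b i)) • c = c) {ξ : F}
    (hξ : coef φ c ξ ≠ 0) : ξ ∈ Set.range (freq b) := by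
  obtain ⟨a, ha, hs⟩ := exists_isExpansion hφ hb
  rw [coef_eq_of_isExpansion ha] at hξ
  exact hs ξ hξ

/-- The coefficients are the values of the Whittaker function on the diagonal translates. -/
theorem coef_eq_whit (hφ : IsCuspEigen φ) (c : GLFin F ⧸ U.toSubgroup) (ξ : Fˣ) :
    coef φ c ξ = whit φ (glIncl F (dia ξ) • c) := by
  set c' := glIncl F (dia ξ) • c
  have key : IsExpansion φ c (fun η => coef φ c' (η * ((ξ⁻¹ : Fˣ) : F))) := by
    refine ⟨by simp [(isExpansion_coef hφ c').1], fun z t ht => ?_⟩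
    have hpos : ∀ w : InfinitePlace F, 0 < w (ξ : F) * t w := fun w =>
      mul_pos (InfinitePlace.pos_iff.mpr ξ.ne_zero) (ht w)
    have h := (isExpansion_coef hφ c').2 (fun w => w.embedding (ξ : F) * z w) _ hpos
    rw [phi_dia hφ.automorphic ξ z ht c] at h
    rw [← (Equiv.mulRight₀ (ξ : F) ξ.ne_zero).hasSum_iff]
    refine h.congr_fun fun η => ?_
    simp only [Function.comp_apply]
    change coef φ c' (η * (ξ : F) * ((ξ⁻¹ : Fˣ) : F)) * expChar (η * (ξ : F)) z *
      (bessel (η * (ξ : F)) t : ℂ) = _
    have e1 : η * (ξ : F) * ((ξ⁻¹ : Fˣ) : F) = η := by simp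
    have e2 : expChar (η * (ξ : F)) z = expChar η fun w => w.embedding (ξ : F) * z w := by
      rw [expChar, expChar, pairing_mul]
    have e3 : bessel (η * (ξ : F)) t = bessel η fun w => w (ξ : F) * t w := by
      refine Finset.prod_congr rfl fun w _ => ?_
      rw [map_mul]
      simp only [mul_assoc]
    rw [e1, e2, e3]
  have := congrFun (coef_eq_of_isExpansion key) (ξ : F)
  simpa [whit] using this

open Classical in
/-- **The Fourier expansion.** -/
theorem hasSum_whit (hφ : IsCuspEigen φ) (c : GLFin F ⧸ U.toSubgroup)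
    (z : InfinitePlace F → ℂ) {t : InfinitePlace F → ℝ} (ht : ∀ w, 0 < t w) :
    HasSum (fun ξ : Fˣ => whit φ (glIncl F (dia ξ) • c) * expChar (ξ : F) z *
      (bessel (ξ : F) t : ℂ)) (φ (ptAt z t, c)) := by
  have h := (isExpansion_coef hφ c).2 z t ht
  rw [← (show Function.Injective fun ξ : Fˣ => (ξ : F) from Units.val_injective).hasSum_iff
    (fun x hx => ?_)] at h
  · exact h.congr_fun fun ξ => by simp only [Function.comp_apply]; rw [coef_eq_whit hφ c ξ]
  · have : x = 0 := by
      by_contra hx0
      exact hx ⟨Units.mk0 x hx0, rfl⟩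
    rw [this, (isExpansion_coef hφ c).1, zero_mul, zero_mul]

end Fermat.Agent.LT.Whittaker
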